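import Mathlib
import Fermat.Agent.LT.T6.H847.EllRamSpec

/-!
# Row LT, tower T6, leaf T6.14c `EllCountC` (helper367): algebra of `k'[Π]` and the Cartan invariant

OFF-MAIN.  No gaps, nothing assumed.  Mathlib + `T6/Spec.lean` + `T6/H847/EllRamSpec.lean` only.

* `embMat` is multiplicative; the matrix `z = x⁻¹ δ₀ s(x)` in closed form;
* the value group `ℤᵐ⁰`: discreteness;
* `cartan_eq367`: the Cartan invariant from the largest entry and the determinant.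
-/

set_option autoImplicit false

open scoped Matrix

noncomputable section

namespace Fermat.Agent.LT.T6.H367

open Fermat.Agent.LT.T6 Fermat.Agent.LT.T6.H847

/-! ## 1. The value group -/

theorem exp_neg_one_lt_one367 : (WithZero.exp (-1 : ℤ) : Γ₀) < 1 := by
  rw [← WithZero.exp_zero]
  exact WithZero.exp_lt_exp.mpr (by norm_num)

theorem eq_exp_of_ne_zero367 {x : Γ₀} (hx : x ≠ 0) : x = WithZero.exp (WithZero.log x) :=
  (WithZero.exp_log hx).symm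

/-- Discreteness of `ℤᵐ⁰`: `x < y` iff `x ≤ exp (-1) * y`. -/
theorem lt_iff_le_exp_mul367 {x y : Γ₀} (hy : y ≠ 0) :
    x < y ↔ x ≤ WithZero.exp (-1 : ℤ) * y := by
  by_cases hx : x = 0
  · subst hx
    constructor
    · intro _; exact bot_le
    · intro _; exact zero_lt_iff.mpr hy
  · rw [eq_exp_of_ne_zero367 hx, eq_exp_of_ne_zero367 hy, ← WithZero.exp_add,
      WithZero.exp_lt_exp, WithZero.exp_le_exp]
    constructor <;> intro h <;> omega

theorem lt_one_iff367 {x : Γ₀} : x < 1 ↔ x ≤ WithZero.exp (-1 : ℤ) := by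
  rw [lt_iff_le_exp_mul367 one_ne_zero, mul_one]

theorem exp_neg_succ367 (n : ℕ) :
    (WithZero.exp (-((n + 1 : ℕ) : ℤ)) : Γ₀) = WithZero.exp (-1 : ℤ) * WithZero.exp (-(n : ℤ)) := by
  rw [← WithZero.exp_add]
  congr 1
  push_cast
  ring

theorem exp_neg_le_one367 (n : ℕ) : (WithZero.exp (-(n : ℤ)) : Γ₀) ≤ 1 := by
  rw [← WithZero.exp_zero]
  exact WithZero.exp_le_exp.mpr (by omega)

/-! ## 2. The algebra `k[Π]`, `Π² = τ Π - ν`, as matrices -/

section Alg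

variable {K : Type} [Field K]

theorem embMat_mul367 (τ ν a b a' b' : K) :
    embMat τ ν a b * embMat τ ν a' b'
      = embMat τ ν (a * a' - ν * b * b') (a * b' + b * a' + τ * b * b') := by
  unfold embMat
  ext i j
  fin_cases i <;> fin_cases j <;>
    simp [Matrix.mul_apply, Fin.sum_univ_two] <;> ring

theorem embMat_det367 (τ ν a b : K) :
    (embMat τ ν a b).det = a ^ 2 + τ * a * b + ν * b ^ 2 := by
  unfold embMat
  rw [Matrix.det_fin_two_of]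
  ring

theorem embMat_map367 {K' : Type} [Field K'] (f : K →+* K') (τ ν a b : K) :
    (embMat τ ν a b).map f = embMat (f τ) (f ν) (f a) (f b) := by
  unfold embMat
  ext i j
  fin_cases i <;> fin_cases j <;> simp

theorem embMat_one367 (τ ν : K) : embMat τ ν 1 0 = 1 := by
  unfold embMat
  ext i j
  fin_cases i <;> fin_cases j <;> simp

theorem embMat_inj367 {τ ν a b a' b' : K} (h : embMat τ ν a b = embMat τ ν a' b') :
    a = a' ∧ b = b' := by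
  unfold embMat at h
  have h1 := congrFun (congrFun h 0) 0
  have h2 := congrFun (congrFun h 1) 0
  simp at h1 h2
  exact ⟨h1, h2⟩

theorem latMat_det367 (τ ν : K) (n : ℕ) (ξ : K) :
    (latMat τ ν n ξ).det = ν ^ n * (1 + τ * ξ + ν * ξ ^ 2) := by
  unfold latMat
  rw [Matrix.det_fin_two_of]
  ring

/-- The matrix of `g_n⁻¹ (a + b Π) g_n`, `g_n = diag(1, νⁿ)`. -/
def conjMat367 (τ ν : K) (n : ℕ) (a b : K) : Matrix (Fin 2) (Fin 2) K :=
  !![a, -(ν ^ (n + 1) * b); b / ν ^ n, a + τ * b]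

/-- The numerator of the `1`-coordinate of `δ₀ s(x) x̄`, `x = 1 + ξ Π`, `s(ξ) = ξ'`. -/
def aNum367 (τ ν d₀ d₁ ξ ξ' : K) : K :=
  d₀ * (1 + τ * ξ + ν * ξ * ξ') - ν * d₁ * (ξ' - ξ)

/-- The numerator of the `Π`-coordinate of `δ₀ s(x) x̄`: the function `F(ξ)`. -/
def bNum367 (τ ν d₀ d₁ ξ ξ' : K) : K :=
  d₀ * (ξ' - ξ) + d₁ * (1 + τ * ξ + ν * ξ * ξ') + τ * d₁ * (ξ' - ξ)

/-- The norm of `1 + ξ Π`. -/
def nrm367 (τ ν ξ : K) : K := 1 + τ * ξ + ν * ξ ^ 2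

/-- **The key matrix identity**: `x_ξ g_n · M = δ₀ · x_{ξ'} g_n` for
`M = g_n⁻¹ (a_z + b_z Π) g_n`, `a_z + b_z Π = δ₀ (1 + ξ' Π) / (1 + ξ Π)`. -/
theorem latMat_mul_conjMat367 (τ ν d₀ d₁ : K) (n : ℕ) (ξ ξ' : K) (hν : ν ≠ 0)
    (hN : nrm367 τ ν ξ ≠ 0) :
    latMat τ ν n ξ *
        conjMat367 τ ν n (aNum367 τ ν d₀ d₁ ξ ξ' / nrm367 τ ν ξ)
          (bNum367 τ ν d₀ d₁ ξ ξ' / nrm367 τ ν ξ)
      = embMat τ ν d₀ d₁ * latMat τ ν n ξ' := by
  have hνn : ν ^ n ≠ 0 := pow_ne_zero n hν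
  generalize hNN : nrm367 τ ν ξ = N at hN ⊢
  unfold nrm367 at hNN
  unfold latMat conjMat367 embMat aNum367 bNum367
  ext i j
  fin_cases i <;> fin_cases j <;>
    simp [Matrix.mul_apply, Fin.sum_univ_two] <;> field_simp <;> rw [← hNN] <;> ring

end Alg

/-! ## 3. The Cartan invariant -/

section Cartan

variable {K : Type} [Field K] [Valued K Γ₀]

theorem entryMax_le367 (g : GL (Fin 2) K) (c : Γ₀)
    (h : ∀ i j : Fin 2, Valued.v ((g : Matrix (Fin 2) (Fin 2) K) i j) ≤ c) :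
    entryMax g ≤ c := by
  unfold entryMax
  exact Finset.sup'_le _ _ fun p _ => h p.1 p.2

theorem le_entryMax367 (g : GL (Fin 2) K) (i j : Fin 2) :
    Valued.v ((g : Matrix (Fin 2) (Fin 2) K) i j) ≤ entryMax g := by
  unfold entryMax
  exact Finset.le_sup' (fun p : Fin 2 × Fin 2 =>
    Valued.v ((g : Matrix (Fin 2) (Fin 2) K) p.1 p.2)) (Finset.mem_univ (i, j))

/-- The Cartan invariant from the largest entry and the determinant. -/
theorem cartan_eq367 (g : GL (Fin 2) K) (j m : ℤ)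
    (hdet : Valued.v (g : Matrix (Fin 2) (Fin 2) K).det = WithZero.exp (-j))
    (hle : ∀ i i' : Fin 2,
      Valued.v ((g : Matrix (Fin 2) (Fin 2) K) i i') ≤ WithZero.exp (-m))
    (hex : ∃ i i' : Fin 2,
      Valued.v ((g : Matrix (Fin 2) (Fin 2) K) i i') = WithZero.exp (-m)) :
    cartan g = (j - m, m) := by
  have hmax : entryMax g = WithZero.exp (-m) := by
    refine le_antisymm (entryMax_le367 g _ hle) ?_
    obtain ⟨i, i', h⟩ := hex
    rw [← h]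
    exact le_entryMax367 g i i'
  unfold cartan
  rw [hmax, hdet, WithZero.log_exp, WithZero.log_exp]
  ext
  · simp; ring
  · simp

end Cartan

/-! ## 4. The conjugate `(x_ξ g_n)⁻¹ δ₀ s(x_ξ g_n)` -/

section Conj

variable {K : Type} [Field K] [Valued K Γ₀]

/-- The standing hypotheses on `(s, τ, ν)` in `k'`. -/
structure Ctx367 (s : K ≃+* K) (τ ν : K) : Prop where
  val_s : ∀ y : K, Valued.v (s y) = Valued.v y
  sτ : s τ = τ
  sν : s ν = ν
  val_ν : Valued.v ν = WithZero.exp (-1 : ℤ)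
  val_τ : Valued.v τ < 1

namespace Ctx367

variable {s : K ≃+* K} {τ ν : K} (C : Ctx367 s τ ν)
include C

theorem ν_ne : ν ≠ 0 := by
  intro h
  have := C.val_ν
  rw [h, Valuation.map_zero] at this
  exact WithZero.exp_ne_zero this.symm

theorem val_τ_le : Valued.v τ ≤ WithZero.exp (-1 : ℤ) := lt_one_iff367.1 C.val_τ

theorem val_ν_pow (n : ℕ) : Valued.v (ν ^ n) = WithZero.exp (-(n : ℤ)) := by
  rw [Valuation.map_pow, C.val_ν, ← WithZero.exp_nsmul]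
  congr 1
  simp

theorem val_small (ξ ξ' : K) (hξ : Valued.v ξ ≤ 1) (hξ' : Valued.v ξ' ≤ 1) :
    Valued.v (τ * ξ + ν * ξ * ξ') ≤ WithZero.exp (-1 : ℤ) := by
  refine Valuation.map_add_le _ ?_ ?_
  · rw [Valuation.map_mul]
    calc Valued.v τ * Valued.v ξ ≤ WithZero.exp (-1 : ℤ) * 1 := mul_le_mul' C.val_τ_le hξ
      _ = _ := mul_one _
  · rw [Valuation.map_mul, Valuation.map_mul, C.val_ν]
    calc WithZero.exp (-1 : ℤ) * Valued.v ξ * Valued.v ξ'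
        ≤ WithZero.exp (-1 : ℤ) * 1 * 1 := mul_le_mul' (mul_le_mul' le_rfl hξ) hξ'
      _ = _ := by rw [mul_one, mul_one]

/-- `A = 1 + τ ξ + ν ξ ξ'` is a unit. -/
theorem val_unit (ξ ξ' : K) (hξ : Valued.v ξ ≤ 1) (hξ' : Valued.v ξ' ≤ 1) :
    Valued.v (1 + τ * ξ + ν * ξ * ξ') = 1 := by
  have h := C.val_small ξ ξ' hξ hξ'
  have h1 : Valued.v (τ * ξ + ν * ξ * ξ') < Valued.v (1 : K) := by
    rw [Valuation.map_one]
    exact lt_of_le_of_lt h exp_neg_one_lt_one367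
  have e : 1 + τ * ξ + ν * ξ * ξ' = 1 + (τ * ξ + ν * ξ * ξ') := by ring
  rw [e, Valuation.map_add_eq_of_lt_left _ h1, Valuation.map_one]

theorem val_nrm (ξ : K) (hξ : Valued.v ξ ≤ 1) : Valued.v (nrm367 τ ν ξ) = 1 := by
  have := C.val_unit ξ ξ hξ hξ
  unfold nrm367
  have e : 1 + τ * ξ + ν * ξ ^ 2 = 1 + τ * ξ + ν * ξ * ξ := by ring
  rw [e]
  exact this

theorem nrm_ne (ξ : K) (hξ : Valued.v ξ ≤ 1) : nrm367 τ ν ξ ≠ 0 := by
  intro h
  have := C.val_nrm ξ hξ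
  rw [h, Valuation.map_zero] at this
  exact zero_ne_one this

theorem val_sub_le (ξ : K) (hξ : Valued.v ξ ≤ 1) : Valued.v (s ξ - ξ) ≤ 1 :=
  Valuation.map_sub_le _ (by rw [C.val_s]; exact hξ) hξ

theorem latMat_det_ne (n : ℕ) (ξ : K) (hξ : Valued.v ξ ≤ 1) : (latMat τ ν n ξ).det ≠ 0 := by
  rw [latMat_det367]
  exact mul_ne_zero (pow_ne_zero n C.ν_ne) (C.nrm_ne ξ hξ)

theorem latGL_val (n : ℕ) (ξ : K) (hξ : Valued.v ξ ≤ 1) :
    ((latGL τ ν n ξ : GL (Fin 2) K) : Matrix (Fin 2) (Fin 2) K) = latMat τ ν n ξ := by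
  unfold latGL
  rw [dif_pos (C.latMat_det_ne n ξ hξ)]
  rfl

theorem glAut_latGL_val (n : ℕ) (ξ : K) (hξ : Valued.v ξ ≤ 1) :
    ((glAut s (latGL τ ν n ξ) : GL (Fin 2) K) : Matrix (Fin 2) (Fin 2) K)
      = latMat τ ν n (s ξ) := by
  have h1 : ((glAut s (latGL τ ν n ξ) : GL (Fin 2) K) : Matrix (Fin 2) (Fin 2) K)
      = ((latGL τ ν n ξ : GL (Fin 2) K) : Matrix (Fin 2) (Fin 2) K).map (s : K →+* K) := rfl
  rw [h1, C.latGL_val n ξ hξ]
  unfold latMat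
  ext i j
  fin_cases i <;> fin_cases j <;> simp [C.sτ, C.sν]

/-- The element `(x_ξ g_n)⁻¹ δ₀ s(x_ξ g_n)`. -/
def conjGL367 (s : K ≃+* K) (τ ν : K) (δ₀ : GL (Fin 2) K) (n : ℕ) (ξ : K) : GL (Fin 2) K :=
  (latGL τ ν n ξ)⁻¹ * δ₀ * glAut s (latGL τ ν n ξ)

omit C [Valued K Γ₀] in
theorem conjGL367_def (s : K ≃+* K) (τ ν : K) (δ₀ : GL (Fin 2) K) (n : ℕ) (ξ : K) :
    conjGL367 s τ ν δ₀ n ξ = (latGL τ ν n ξ)⁻¹ * δ₀ * glAut s (latGL τ ν n ξ) := rfl

/-- The matrix of `(x_ξ g_n)⁻¹ δ₀ s(x_ξ g_n)` in closed form. -/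
theorem conjGL_val (d₀ d₁ : K) (δ₀ : GL (Fin 2) K)
    (hδ : (δ₀ : Matrix (Fin 2) (Fin 2) K) = embMat τ ν d₀ d₁) (n : ℕ) (ξ : K)
    (hξ : Valued.v ξ ≤ 1) :
    ((conjGL367 s τ ν δ₀ n ξ : GL (Fin 2) K) : Matrix (Fin 2) (Fin 2) K)
      = conjMat367 τ ν n (aNum367 τ ν d₀ d₁ ξ (s ξ) / nrm367 τ ν ξ)
          (bNum367 τ ν d₀ d₁ ξ (s ξ) / nrm367 τ ν ξ) := by
  have key := latMat_mul_conjMat367 τ ν d₀ d₁ n ξ (s ξ) C.ν_ne (C.nrm_ne ξ hξ)
  rw [conjGL367_def, Units.val_mul, Units.val_mul, mul_assoc, hδ, C.glAut_latGL_val n ξ hξ,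
    ← key, ← C.latGL_val n ξ hξ, ← mul_assoc, ← Units.val_mul, inv_mul_cancel, Units.val_one,
    one_mul]

/-- The determinant of the conjugate has the valuation of `det δ₀`. -/
theorem val_det_conjGL (δ₀ : GL (Fin 2) K) (n : ℕ) (ξ : K) :
    Valued.v ((conjGL367 s τ ν δ₀ n ξ : GL (Fin 2) K) : Matrix (Fin 2) (Fin 2) K).det
      = Valued.v (δ₀ : Matrix (Fin 2) (Fin 2) K).det := by
  set X := latGL τ ν n ξ with hX
  have h1 : ((glAut s X : GL (Fin 2) K) : Matrix (Fin 2) (Fin 2) K).det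
      = s ((X : Matrix (Fin 2) (Fin 2) K).det) := by
    have : ((glAut s X : GL (Fin 2) K) : Matrix (Fin 2) (Fin 2) K)
        = (s : K →+* K).mapMatrix (X : Matrix (Fin 2) (Fin 2) K) := rfl
    rw [this, ← RingHom.map_det]
    rfl
  have h2 : ((X⁻¹ : GL (Fin 2) K) : Matrix (Fin 2) (Fin 2) K).det
      * (X : Matrix (Fin 2) (Fin 2) K).det = 1 := by
    rw [← Matrix.det_mul, ← Units.val_mul, inv_mul_cancel, Units.val_one, Matrix.det_one]
  have h3 : Valued.v ((X⁻¹ : GL (Fin 2) K) : Matrix (Fin 2) (Fin 2) K).det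
      * Valued.v (X : Matrix (Fin 2) (Fin 2) K).det = 1 := by
    rw [← Valuation.map_mul, h2, Valuation.map_one]
  rw [conjGL367_def, ← hX, Units.val_mul, Units.val_mul, Matrix.det_mul, Matrix.det_mul,
    Valuation.map_mul, Valuation.map_mul, h1, C.val_s]
  calc Valued.v ((X⁻¹ : GL (Fin 2) K) : Matrix (Fin 2) (Fin 2) K).det
        * Valued.v (δ₀ : Matrix (Fin 2) (Fin 2) K).det
        * Valued.v (X : Matrix (Fin 2) (Fin 2) K).det
      = (Valued.v ((X⁻¹ : GL (Fin 2) K) : Matrix (Fin 2) (Fin 2) K).det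
          * Valued.v (X : Matrix (Fin 2) (Fin 2) K).det)
        * Valued.v (δ₀ : Matrix (Fin 2) (Fin 2) K).det := by
        rw [mul_assoc, mul_comm (Valued.v (δ₀ : Matrix (Fin 2) (Fin 2) K).det), ← mul_assoc]
    _ = _ := by rw [h3, one_mul]

end Ctx367

end Conj

end Fermat.Agent.LT.T6.H367

end
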