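import Mathlib
import Fermat.Agent.LT.T6.H367.EllBasic

/-!
# Row LT, tower T6, leaf T6.14c `EllCountC` (helper367): systems of representatives modulo `νⁿ`

OFF-MAIN.  No gaps, nothing assumed.

A system of representatives of `𝒪 / νⁿ⁺¹` is in bijection with `B_n × T`, `(ξ, t) ↦ ξ + νⁿ t`,
`T` a system of representatives of the residue field.
-/

set_option autoImplicit false

noncomputable section

namespace Fermat.Agent.LT.T6.H367

open Fermat.Agent.LT.T6 Fermat.Agent.LT.T6.H847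

section Fib

variable {K : Type} [Field K] [Valued K Γ₀]

/-- A system of representatives of the residue field. -/
structure IsResSys367 (T : Finset K) : Prop where
  int : ∀ x ∈ T, Valued.v x ≤ 1
  sep : ∀ x ∈ T, ∀ y ∈ T, x ≠ y → Valued.v (x - y) = 1
  cov : ∀ z : K, Valued.v z ≤ 1 → ∃ x ∈ T, Valued.v (z - x) < 1

theorem exp_neg_succ_lt367 (n : ℕ) :
    (WithZero.exp (-((n + 1 : ℕ) : ℤ)) : Γ₀) < WithZero.exp (-(n : ℤ)) :=
  WithZero.exp_lt_exp.mpr (by push_cast; omega)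

theorem val_pow_unif367 {ν : K} (hν : Valued.v ν = WithZero.exp (-1 : ℤ)) (n : ℕ) :
    Valued.v (ν ^ n) = WithZero.exp (-(n : ℤ)) := by
  rw [Valuation.map_pow, hν, ← WithZero.exp_nsmul]
  congr 1
  simp

/-- A system of representatives modulo `ν⁰` is a singleton. -/
theorem reprMod_zero367 (B : Set K) (hB : IsReprMod 0 B) :
    ∃ b₀ : K, B = {b₀} ∧ Valued.v b₀ ≤ 1 := by
  obtain ⟨b₀, ⟨hb₀, _⟩, huniq⟩ := hB.2 0 (by simp)
  refine ⟨b₀, ?_, hB.1 b₀ hb₀⟩
  ext b
  simp only [Set.mem_singleton_iff]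
  constructor
  · intro hb
    refine huniq b ⟨hb, ?_⟩
    rw [zero_sub, Valuation.map_neg]
    simpa using hB.1 b hb
  · rintro rfl
    exact hb₀

/-- **The fibration `B_{n+1} ≃ B_n × T`.** -/
theorem fib367 {ν : K} (hν : Valued.v ν = WithZero.exp (-1 : ℤ)) (T : Finset K)
    (hT : IsResSys367 T) (n : ℕ) (B B' : Set K) (hB : IsReprMod n B)
    (hB' : IsReprMod (n + 1) B') (Bf : Finset K) (hBf : (Bf : Set K) = B) :
    ∃ Bf' : Finset K, (Bf' : Set K) = B' ∧
      ∀ h : K → ℂ, (∀ x y : K, Valued.v x ≤ 1 → Valued.v y ≤ 1 →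
          Valued.v (x - y) ≤ WithZero.exp (-((n + 1 : ℕ) : ℤ)) → h x = h y) →
        ∑ b ∈ Bf', h b = ∑ ξ ∈ Bf, ∑ t ∈ T, h (ξ + ν ^ n * t) := by
  classical
  have hνn := val_pow_unif367 hν n
  have hν0 : ν ≠ 0 := by
    intro h
    rw [h, Valuation.map_zero] at hν
    exact WithZero.exp_ne_zero hν.symm
  have hνn0 : ν ^ n ≠ 0 := pow_ne_zero n hν0
  have hmemB : ∀ ξ : K, ξ ∈ Bf ↔ ξ ∈ B := fun ξ => by rw [← hBf]; exact Finset.mem_coe.symm
  have hmul : ∀ t : K, Valued.v t ≤ 1 → Valued.v (ν ^ n * t) ≤ WithZero.exp (-(n : ℤ)) := by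
    intro t ht
    rw [Valuation.map_mul, hνn]
    calc WithZero.exp (-(n : ℤ)) * Valued.v t ≤ WithZero.exp (-(n : ℤ)) * 1 :=
          mul_le_mul' le_rfl ht
      _ = _ := mul_one _
  have hint : ∀ ξ : K, ξ ∈ B → ∀ t : K, t ∈ T → Valued.v (ξ + ν ^ n * t) ≤ 1 := by
    intro ξ hξ t ht
    exact Valuation.map_add_le _ (hB.1 ξ hξ)
      (le_trans (hmul t (hT.int t ht)) (exp_neg_le_one367 n))
  have hrep : ∀ x : K, Valued.v x ≤ 1 →
      ∃ b : K, b ∈ B' ∧ Valued.v (x - b) ≤ WithZero.exp (-((n + 1 : ℕ) : ℤ)) :=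
    fun x hx => (hB'.2 x hx).exists
  choose! rep hrep using hrep
  set Ψ : K × K → K := fun p => rep (p.1 + ν ^ n * p.2) with hΨ
  have hinj : Set.InjOn Ψ ((Bf ×ˢ T : Finset (K × K)) : Set (K × K)) := by
    rintro ⟨ξ, t⟩ hp ⟨ξ', t'⟩ hp' heq
    simp only [Finset.coe_product, Set.mem_prod, Finset.mem_coe] at hp hp'
    obtain ⟨hξ, ht⟩ := hp
    obtain ⟨hξ', ht'⟩ := hp'
    rw [hmemB] at hξ hξ'
    simp only [hΨ] at heq
    have h1 := (hrep _ (hint ξ hξ t ht)).2
    have h2 := (hrep _ (hint ξ' hξ' t' ht')).2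
    rw [← heq] at h2
    have h3 : Valued.v ((ξ + ν ^ n * t) - (ξ' + ν ^ n * t'))
        ≤ WithZero.exp (-((n + 1 : ℕ) : ℤ)) := by
      have e : (ξ + ν ^ n * t) - (ξ' + ν ^ n * t')
          = (ξ + ν ^ n * t - rep (ξ + ν ^ n * t)) - (ξ' + ν ^ n * t' - rep (ξ + ν ^ n * t)) := by
        ring
      rw [e]
      exact Valuation.map_sub_le _ h1 h2
    have h4 : Valued.v (ξ' - ξ) ≤ WithZero.exp (-(n : ℤ)) := by
      have e : ξ' - ξ = ν ^ n * t + -(ν ^ n * t') + -((ξ + ν ^ n * t) - (ξ' + ν ^ n * t')) := by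
        ring
      rw [e]
      refine Valuation.map_add_le _ (Valuation.map_add_le _ (hmul t (hT.int t ht)) ?_) ?_
      · rw [Valuation.map_neg]
        exact hmul t' (hT.int t' ht')
      · rw [Valuation.map_neg]
        exact le_trans h3 (exp_neg_succ_lt367 n).le
    have h5 : ξ = ξ' := by
      obtain ⟨b, _, hbu⟩ := hB.2 ξ' (hB.1 ξ' hξ')
      have e1 := hbu ξ ⟨hξ, h4⟩
      have e2 := hbu ξ' ⟨hξ', by simp⟩
      rw [e1, e2]
    subst h5
    have h6 : t = t' := by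
      by_contra hne
      have h7 := hT.sep t ht t' ht' hne
      have e : (ξ + ν ^ n * t) - (ξ + ν ^ n * t') = ν ^ n * (t - t') := by ring
      rw [e, Valuation.map_mul, hνn, h7, mul_one] at h3
      exact absurd h3 (not_le.2 (exp_neg_succ_lt367 n))
    rw [h6]
  refine ⟨(Bf ×ˢ T).image Ψ, ?_, ?_⟩
  · ext b
    simp only [Finset.coe_image, Finset.coe_product, Set.mem_image, Set.mem_prod,
      Finset.mem_coe, Prod.exists]
    constructor
    · rintro ⟨ξ, t, ⟨hξ, ht⟩, rfl⟩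
      rw [hmemB] at hξ
      exact (hrep _ (hint ξ hξ t ht)).1
    · intro hb
      have hbint := hB'.1 b hb
      obtain ⟨ξ, ⟨hξ, hξb⟩, _⟩ := hB.2 b hbint
      have hy : Valued.v ((b - ξ) / ν ^ n) ≤ 1 := by
        rw [map_div₀, hνn]
        exact div_le_one_of_le₀ hξb zero_le
      obtain ⟨t, ht, htb⟩ := hT.cov _ hy
      refine ⟨ξ, t, ⟨(hmemB ξ).2 hξ, ht⟩, ?_⟩
      have hclose : Valued.v ((ξ + ν ^ n * t) - b) ≤ WithZero.exp (-((n + 1 : ℕ) : ℤ)) := by
        have e : (ξ + ν ^ n * t) - b = -(ν ^ n * ((b - ξ) / ν ^ n - t)) := by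
          field_simp
          ring
        rw [e, Valuation.map_neg, Valuation.map_mul, hνn, exp_neg_succ367, mul_comm]
        exact mul_le_mul' (lt_one_iff367.1 htb) le_rfl
      obtain ⟨b', _, hbu⟩ := hB'.2 _ (hint ξ hξ t ht)
      have e1 := hbu b ⟨hb, hclose⟩
      have e2 := hbu _ (hrep _ (hint ξ hξ t ht))
      simp only [hΨ]
      rw [e1, e2]
  · intro h hh
    rw [Finset.sum_image hinj, Finset.sum_product]
    refine Finset.sum_congr rfl fun ξ hξ => Finset.sum_congr rfl fun t ht => ?_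
    rw [hmemB] at hξ
    have h1 := hrep _ (hint ξ hξ t ht)
    simp only [hΨ]
    refine hh _ _ (hB'.1 _ h1.1) (hint ξ hξ t ht) ?_
    rw [Valuation.map_sub_swap]
    exact h1.2

/-- **The systems of representatives are finite, of cardinality `Qⁿ`, and fibred.** -/
theorem reprFin367 {ν : K} (hν : Valued.v ν = WithZero.exp (-1 : ℤ)) (T : Finset K)
    (hT : IsResSys367 T) (B : ℕ → Set K) (hB : ∀ n, IsReprMod n (B n)) :
    ∃ Bf : ℕ → Finset K, (∀ n, ((Bf n : Finset K) : Set K) = B n) ∧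
      (∃ b₀ : K, Bf 0 = {b₀}) ∧
      (∀ n, (Bf n).card = T.card ^ n) ∧
      ∀ (n : ℕ) (h : K → ℂ), (∀ x y : K, Valued.v x ≤ 1 → Valued.v y ≤ 1 →
          Valued.v (x - y) ≤ WithZero.exp (-((n + 1 : ℕ) : ℤ)) → h x = h y) →
        ∑ b ∈ Bf (n + 1), h b = ∑ ξ ∈ Bf n, ∑ t ∈ T, h (ξ + ν ^ n * t) := by
  classical
  have hfin : ∀ n, (B n).Finite := by
    intro n
    induction n with
    | zero =>
      obtain ⟨b₀, hb₀, _⟩ := reprMod_zero367 (B 0) (hB 0)
      rw [hb₀]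
      exact Set.finite_singleton b₀
    | succ n ih =>
      obtain ⟨Bf', hBf', _⟩ := fib367 hν T hT n (B n) (B (n + 1)) (hB n) (hB (n + 1))
        ih.toFinset (Set.Finite.coe_toFinset ih)
      rw [← hBf']
      exact Finset.finite_toSet Bf'
  have hfib : ∀ (n : ℕ) (h : K → ℂ), (∀ x y : K, Valued.v x ≤ 1 → Valued.v y ≤ 1 →
        Valued.v (x - y) ≤ WithZero.exp (-((n + 1 : ℕ) : ℤ)) → h x = h y) →
      ∑ b ∈ (hfin (n + 1)).toFinset, h b
        = ∑ ξ ∈ (hfin n).toFinset, ∑ t ∈ T, h (ξ + ν ^ n * t) := by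
    intro n h hh
    obtain ⟨Bf', hBf', hsum⟩ := fib367 hν T hT n (B n) (B (n + 1)) (hB n) (hB (n + 1))
      (hfin n).toFinset (Set.Finite.coe_toFinset (hfin n))
    have e : Bf' = (hfin (n + 1)).toFinset := by
      apply Finset.coe_injective
      rw [hBf', Set.Finite.coe_toFinset]
    rw [← e]
    exact hsum h hh
  refine ⟨fun n => (hfin n).toFinset, fun n => Set.Finite.coe_toFinset (hfin n), ?_, ?_, hfib⟩
  · obtain ⟨b₀, hb₀, _⟩ := reprMod_zero367 (B 0) (hB 0)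
    refine ⟨b₀, ?_⟩
    apply Finset.coe_injective
    rw [Set.Finite.coe_toFinset, hb₀, Finset.coe_singleton]
  · intro n
    show (hfin n).toFinset.card = T.card ^ n
    induction n with
    | zero =>
      obtain ⟨b₀, hb₀, _⟩ := reprMod_zero367 (B 0) (hB 0)
      have : (hfin 0).toFinset = {b₀} := by
        apply Finset.coe_injective
        rw [Set.Finite.coe_toFinset, hb₀, Finset.coe_singleton]
      rw [this]
      simp
    | succ n ih =>
      have h1 := hfib n (fun _ => 1) (fun _ _ _ _ _ => rfl)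
      simp only [Finset.sum_const, nsmul_eq_mul, mul_one] at h1
      have h2 : (((hfin (n + 1)).toFinset.card : ℕ) : ℂ)
          = (((hfin n).toFinset.card * T.card : ℕ) : ℂ) := by
        rw [h1]
        push_cast
        ring
      have h3 := Nat.cast_injective h2
      rw [h3, ih, pow_succ]

end Fib

end Fermat.Agent.LT.T6.H367

end
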