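import Mathlib
import Fermat.Agent.LT.T6.H367.EllBasic

/-!
# Row LT, tower T6, leaf T6.14c `EllCountC` (helper367): the Cartan invariant of the conjugates

OFF-MAIN.  No gaps, nothing assumed.
-/

set_option autoImplicit false

open scoped Matrix

noncomputable section

namespace Fermat.Agent.LT.T6.H367

open Fermat.Agent.LT.T6 Fermat.Agent.LT.T6.H847

variable {K : Type} [Field K] [Valued K Γ₀]

theorem exp_le_exp_nat367 (n : ℕ) : (1 : Γ₀) ≤ WithZero.exp ((n : ℤ)) := by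
  rw [← WithZero.exp_zero]
  exact WithZero.exp_le_exp.mpr (by omega)

theorem le_mul_exp_nat367 (x : Γ₀) (n : ℕ) : x ≤ x * WithZero.exp ((n : ℤ)) := by
  calc x = x * 1 := (mul_one x).symm
    _ ≤ x * WithZero.exp ((n : ℤ)) := mul_le_mul' le_rfl (exp_le_exp_nat367 n)

/-- The Cartan invariant of a matrix `g_n⁻¹ (a + b Π) g_n`. -/
theorem cartan_conjMat367 {s : K ≃+* K} {τ ν : K} (C : Ctx367 s τ ν) (g : GL (Fin 2) K)
    (n : ℕ) (a b : K) (hg : (g : Matrix (Fin 2) (Fin 2) K) = conjMat367 τ ν n a b) (j m : ℤ)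
    (hdet : Valued.v (g : Matrix (Fin 2) (Fin 2) K).det = WithZero.exp (-j))
    (ha : Valued.v a ≤ WithZero.exp (-m))
    (hb : Valued.v b * WithZero.exp ((n : ℤ)) ≤ WithZero.exp (-m))
    (hex : Valued.v a = WithZero.exp (-m) ∨
      Valued.v b * WithZero.exp ((n : ℤ)) = WithZero.exp (-m)) :
    cartan g = (j - m, m) := by
  have hb0 : Valued.v b ≤ WithZero.exp (-m) := le_trans (le_mul_exp_nat367 _ n) hb
  have h10 : Valued.v (b / ν ^ n) = Valued.v b * WithZero.exp ((n : ℤ)) := by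
    rw [map_div₀, C.val_ν_pow, div_eq_mul_inv, ← WithZero.exp_neg, neg_neg]
  refine cartan_eq367 g j m hdet ?_ ?_
  · intro i i'
    rw [hg]
    unfold conjMat367
    fin_cases i <;> fin_cases i'
    · simpa using ha
    · simp only [Fin.zero_eta, Fin.isValue, Fin.mk_one, Matrix.of_apply, Matrix.cons_val',
        Matrix.cons_val_one, Matrix.cons_val_fin_one, Matrix.cons_val_zero, Valuation.map_neg]
      rw [Valuation.map_mul]
      calc Valued.v (ν ^ (n + 1)) * Valued.v b ≤ 1 * Valued.v b := by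
            refine mul_le_mul' ?_ le_rfl
            rw [C.val_ν_pow]
            exact exp_neg_le_one367 _
        _ = Valued.v b := one_mul _
        _ ≤ _ := hb0
    · simp only [Fin.mk_one, Fin.isValue, Fin.zero_eta, Matrix.of_apply, Matrix.cons_val',
        Matrix.cons_val_zero, Matrix.cons_val_fin_one, Matrix.cons_val_one]
      rw [h10]
      exact hb
    · simp only [Fin.mk_one, Fin.isValue, Matrix.of_apply, Matrix.cons_val', Matrix.cons_val_one,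
        Matrix.cons_val_fin_one]
      refine Valuation.map_add_le _ ha ?_
      rw [Valuation.map_mul]
      calc Valued.v τ * Valued.v b ≤ 1 * Valued.v b := mul_le_mul' C.val_τ.le le_rfl
        _ = Valued.v b := one_mul _
        _ ≤ _ := hb0
  · rcases hex with h | h
    · refine ⟨0, 0, ?_⟩
      rw [hg]
      unfold conjMat367
      simpa using h
    · refine ⟨1, 0, ?_⟩
      rw [hg]
      unfold conjMat367
      simp only [Fin.isValue, Matrix.of_apply, Matrix.cons_val', Matrix.cons_val_zero,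
        Matrix.cons_val_fin_one, Matrix.cons_val_one]
      rw [h10]
      exact h

theorem val_eq_exp_ord367 {x : K} (hx : x ≠ 0) :
    Valued.v x = WithZero.exp (-(ord847 x)) := by
  unfold ord847
  rw [neg_neg, WithZero.exp_log]
  exact (Valuation.ne_zero_iff _).2 hx

theorem ord_eq_of_val367 {x : K} {a : ℤ} (h : Valued.v x = WithZero.exp (-a)) :
    ord847 x = a := by
  unfold ord847
  rw [h, WithZero.log_exp, neg_neg]

namespace Ctx367

variable {s : K ≃+* K} {τ ν : K} (C : Ctx367 s τ ν)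
include C

theorem val_div_nrm (x ξ : K) (hξ : Valued.v ξ ≤ 1) :
    Valued.v (x / nrm367 τ ν ξ) = Valued.v x := by
  rw [map_div₀, C.val_nrm ξ hξ, div_one]

/-! ### The odd case `v d₀ < v d₁` -/

theorem val_bNum_odd (d₀ d₁ ξ : K) (hξ : Valued.v ξ ≤ 1) (hO : Valued.v d₀ < Valued.v d₁) :
    Valued.v (bNum367 τ ν d₀ d₁ ξ (s ξ)) = Valued.v d₁ := by
  have hξ' : Valued.v (s ξ) ≤ 1 := by rw [C.val_s]; exact hξ
  have hd₁ : Valued.v d₁ ≠ 0 := ne_of_gt (lt_of_le_of_lt bot_le hO)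
  have hA := C.val_unit ξ (s ξ) hξ hξ'
  have hD := C.val_sub_le ξ hξ
  have e : bNum367 τ ν d₀ d₁ ξ (s ξ)
      = d₁ * (1 + τ * ξ + ν * ξ * s ξ) + (d₀ * (s ξ - ξ) + τ * d₁ * (s ξ - ξ)) := by
    unfold bNum367; ring
  have h1 : Valued.v (d₁ * (1 + τ * ξ + ν * ξ * s ξ)) = Valued.v d₁ := by
    rw [Valuation.map_mul, hA, mul_one]
  have h2 : Valued.v (d₀ * (s ξ - ξ) + τ * d₁ * (s ξ - ξ)) < Valued.v d₁ := by
    refine lt_of_le_of_lt (Valuation.map_add _ _ _) (max_lt ?_ ?_)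
    · rw [Valuation.map_mul]
      calc Valued.v d₀ * Valued.v (s ξ - ξ) ≤ Valued.v d₀ * 1 := mul_le_mul' le_rfl hD
        _ = Valued.v d₀ := mul_one _
        _ < _ := hO
    · rw [Valuation.map_mul, Valuation.map_mul]
      calc Valued.v τ * Valued.v d₁ * Valued.v (s ξ - ξ)
          ≤ WithZero.exp (-1 : ℤ) * Valued.v d₁ * 1 :=
            mul_le_mul' (mul_le_mul' C.val_τ_le le_rfl) hD
        _ = WithZero.exp (-1 : ℤ) * Valued.v d₁ := mul_one _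
        _ < Valued.v d₁ := (lt_iff_le_exp_mul367 hd₁).2 le_rfl
  rw [e, Valuation.map_add_eq_of_lt_left _ (by rw [h1]; exact h2), h1]

theorem val_aNum_odd (d₀ d₁ ξ : K) (hξ : Valued.v ξ ≤ 1) (hO : Valued.v d₀ < Valued.v d₁) :
    Valued.v (aNum367 τ ν d₀ d₁ ξ (s ξ)) ≤ WithZero.exp (-1 : ℤ) * Valued.v d₁ := by
  have hξ' : Valued.v (s ξ) ≤ 1 := by rw [C.val_s]; exact hξ
  have hd₁ : Valued.v d₁ ≠ 0 := ne_of_gt (lt_of_le_of_lt bot_le hO)
  have hA := C.val_unit ξ (s ξ) hξ hξ'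
  have hD := C.val_sub_le ξ hξ
  unfold aNum367
  refine Valuation.map_sub_le _ ?_ ?_
  · rw [Valuation.map_mul, hA, mul_one]
    exact (lt_iff_le_exp_mul367 hd₁).1 hO
  · rw [Valuation.map_mul, Valuation.map_mul, C.val_ν]
    calc WithZero.exp (-1 : ℤ) * Valued.v d₁ * Valued.v (s ξ - ξ)
        ≤ WithZero.exp (-1 : ℤ) * Valued.v d₁ * 1 := mul_le_mul' le_rfl hD
      _ = _ := mul_one _

theorem val_det_odd (d₀ d₁ : K) (hO : Valued.v d₀ < Valued.v d₁) :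
    Valued.v ((embMat τ ν d₀ d₁).det) = WithZero.exp (-(2 * ord847 d₁ + 1)) := by
  have hd₁0 : d₁ ≠ 0 := by
    intro h
    rw [h, Valuation.map_zero] at hO
    exact not_lt_bot hO
  have hv := val_eq_exp_ord367 hd₁0
  have hd₁ : Valued.v d₁ ≠ 0 := (Valuation.ne_zero_iff _).2 hd₁0
  have hd₀ : Valued.v d₀ ≤ WithZero.exp (-(ord847 d₁ + 1)) := by
    have := (lt_iff_le_exp_mul367 hd₁).1 hO
    rw [hv, ← WithZero.exp_add] at this
    have e : (-1 : ℤ) + -ord847 d₁ = -(ord847 d₁ + 1) := by ring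
    rw [e] at this
    exact this
  rw [embMat_det367]
  have e : d₀ ^ 2 + τ * d₀ * d₁ + ν * d₁ ^ 2 = ν * d₁ ^ 2 + (d₀ ^ 2 + τ * d₀ * d₁) := by ring
  have h1 : Valued.v (ν * d₁ ^ 2) = WithZero.exp (-(2 * ord847 d₁ + 1)) := by
    rw [Valuation.map_mul, Valuation.map_pow, C.val_ν, hv, pow_two, ← WithZero.exp_add,
      ← WithZero.exp_add]
    congr 1
    ring
  have h2 : Valued.v (d₀ ^ 2 + τ * d₀ * d₁) ≤ WithZero.exp (-(2 * ord847 d₁ + 2)) := by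
    refine Valuation.map_add_le _ ?_ ?_
    · rw [Valuation.map_pow, pow_two]
      calc Valued.v d₀ * Valued.v d₀
          ≤ WithZero.exp (-(ord847 d₁ + 1)) * WithZero.exp (-(ord847 d₁ + 1)) :=
            mul_le_mul' hd₀ hd₀
        _ = _ := by rw [← WithZero.exp_add]; congr 1; ring
    · rw [Valuation.map_mul, Valuation.map_mul]
      calc Valued.v τ * Valued.v d₀ * Valued.v d₁
          ≤ WithZero.exp (-1 : ℤ) * WithZero.exp (-(ord847 d₁ + 1)) * WithZero.exp (-(ord847 d₁))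
            := mul_le_mul' (mul_le_mul' C.val_τ_le hd₀) hv.le
        _ = _ := by rw [← WithZero.exp_add, ← WithZero.exp_add]; congr 1; ring
  have h3 : Valued.v (d₀ ^ 2 + τ * d₀ * d₁) < Valued.v (ν * d₁ ^ 2) := by
    rw [h1]
    refine lt_of_le_of_lt h2 (WithZero.exp_lt_exp.mpr ?_)
    omega
  rw [e, Valuation.map_add_eq_of_lt_left _ h3, h1]

/-- **The Cartan invariant, odd case**: `(h + n + 1, h - n)`, `h = ord d₁`. -/
theorem cartan_odd (d₀ d₁ : K) (δ₀ : GL (Fin 2) K)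
    (hδ : (δ₀ : Matrix (Fin 2) (Fin 2) K) = embMat τ ν d₀ d₁) (hO : Valued.v d₀ < Valued.v d₁)
    (n : ℕ) (ξ : K) (hξ : Valued.v ξ ≤ 1) :
    cartan (conjGL367 s τ ν δ₀ n ξ) = (ord847 d₁ + n + 1, ord847 d₁ - n) := by
  have hd₁0 : d₁ ≠ 0 := by
    intro h
    rw [h, Valuation.map_zero] at hO
    exact not_lt_bot hO
  have hv := val_eq_exp_ord367 hd₁0
  have hb : Valued.v (bNum367 τ ν d₀ d₁ ξ (s ξ) / nrm367 τ ν ξ) * WithZero.exp ((n : ℤ))
      = WithZero.exp (-(ord847 d₁ - n)) := by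
    rw [C.val_div_nrm _ ξ hξ, C.val_bNum_odd d₀ d₁ ξ hξ hO, hv, ← WithZero.exp_add]
    congr 1
    ring
  have ha : Valued.v (aNum367 τ ν d₀ d₁ ξ (s ξ) / nrm367 τ ν ξ)
      ≤ WithZero.exp (-(ord847 d₁ - n)) := by
    rw [C.val_div_nrm _ ξ hξ]
    refine le_trans (C.val_aNum_odd d₀ d₁ ξ hξ hO) ?_
    rw [hv, ← WithZero.exp_add]
    exact WithZero.exp_le_exp.mpr (by omega)
  have hdet : Valued.v ((conjGL367 s τ ν δ₀ n ξ : GL (Fin 2) K)
      : Matrix (Fin 2) (Fin 2) K).det = WithZero.exp (-(2 * ord847 d₁ + 1)) := by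
    rw [C.val_det_conjGL, hδ, C.val_det_odd d₀ d₁ hO]
  have := cartan_conjMat367 C (conjGL367 s τ ν δ₀ n ξ) n _ _
    (C.conjGL_val d₀ d₁ δ₀ hδ n ξ hξ) (2 * ord847 d₁ + 1) (ord847 d₁ - n) hdet ha hb.le
    (Or.inr hb)
  rw [this]
  ext
  · simp; ring
  · simp

/-! ### The even case `v d₁ ≤ v d₀`, `d₀ ≠ 0` -/

theorem val_aNum_even (d₀ d₁ ξ : K) (hξ : Valued.v ξ ≤ 1) (hE : Valued.v d₁ ≤ Valued.v d₀)
    (hd₀ : d₀ ≠ 0) : Valued.v (aNum367 τ ν d₀ d₁ ξ (s ξ)) = Valued.v d₀ := by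
  have hξ' : Valued.v (s ξ) ≤ 1 := by rw [C.val_s]; exact hξ
  have hv₀ : Valued.v d₀ ≠ 0 := (Valuation.ne_zero_iff _).2 hd₀
  have hA := C.val_unit ξ (s ξ) hξ hξ'
  have hD := C.val_sub_le ξ hξ
  have e : aNum367 τ ν d₀ d₁ ξ (s ξ)
      = d₀ * (1 + τ * ξ + ν * ξ * s ξ) + -(ν * d₁ * (s ξ - ξ)) := by
    unfold aNum367; ring
  have h1 : Valued.v (d₀ * (1 + τ * ξ + ν * ξ * s ξ)) = Valued.v d₀ := by
    rw [Valuation.map_mul, hA, mul_one]
  have h2 : Valued.v (-(ν * d₁ * (s ξ - ξ))) < Valued.v d₀ := by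
    rw [Valuation.map_neg, Valuation.map_mul, Valuation.map_mul, C.val_ν]
    calc WithZero.exp (-1 : ℤ) * Valued.v d₁ * Valued.v (s ξ - ξ)
        ≤ WithZero.exp (-1 : ℤ) * Valued.v d₀ * 1 := mul_le_mul' (mul_le_mul' le_rfl hE) hD
      _ = WithZero.exp (-1 : ℤ) * Valued.v d₀ := mul_one _
      _ < Valued.v d₀ := (lt_iff_le_exp_mul367 hv₀).2 le_rfl
  rw [e, Valuation.map_add_eq_of_lt_left _ (by rw [h1]; exact h2), h1]

theorem val_bNum_even (d₀ d₁ ξ : K) (hξ : Valued.v ξ ≤ 1) (hE : Valued.v d₁ ≤ Valued.v d₀) :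
    Valued.v (bNum367 τ ν d₀ d₁ ξ (s ξ)) ≤ Valued.v d₀ := by
  have hξ' : Valued.v (s ξ) ≤ 1 := by rw [C.val_s]; exact hξ
  have hA := C.val_unit ξ (s ξ) hξ hξ'
  have hD := C.val_sub_le ξ hξ
  unfold bNum367
  refine Valuation.map_add_le _ (Valuation.map_add_le _ ?_ ?_) ?_
  · rw [Valuation.map_mul]
    calc Valued.v d₀ * Valued.v (s ξ - ξ) ≤ Valued.v d₀ * 1 := mul_le_mul' le_rfl hD
      _ = _ := mul_one _
  · rw [Valuation.map_mul, hA, mul_one]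
    exact hE
  · rw [Valuation.map_mul, Valuation.map_mul]
    calc Valued.v τ * Valued.v d₁ * Valued.v (s ξ - ξ)
        ≤ 1 * Valued.v d₀ * 1 := mul_le_mul' (mul_le_mul' C.val_τ.le hE) hD
      _ = _ := by rw [one_mul, mul_one]

theorem val_det_even (d₀ d₁ : K) (hE : Valued.v d₁ ≤ Valued.v d₀) (hd₀ : d₀ ≠ 0) :
    Valued.v ((embMat τ ν d₀ d₁).det) = WithZero.exp (-(2 * ord847 d₀)) := by
  have hv := val_eq_exp_ord367 hd₀
  rw [hv] at hE
  rw [embMat_det367]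
  have e : d₀ ^ 2 + τ * d₀ * d₁ + ν * d₁ ^ 2 = d₀ ^ 2 + (τ * d₀ * d₁ + ν * d₁ ^ 2) := by ring
  have h1 : Valued.v (d₀ ^ 2) = WithZero.exp (-(2 * ord847 d₀)) := by
    rw [Valuation.map_pow, hv, pow_two, ← WithZero.exp_add]
    congr 1
    ring
  have h2 : Valued.v (τ * d₀ * d₁ + ν * d₁ ^ 2) ≤ WithZero.exp (-(2 * ord847 d₀ + 1)) := by
    refine Valuation.map_add_le _ ?_ ?_
    · rw [Valuation.map_mul, Valuation.map_mul]
      calc Valued.v τ * Valued.v d₀ * Valued.v d₁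
          ≤ WithZero.exp (-1 : ℤ) * WithZero.exp (-(ord847 d₀)) * WithZero.exp (-(ord847 d₀))
            := mul_le_mul' (mul_le_mul' C.val_τ_le hv.le) hE
        _ = _ := by rw [← WithZero.exp_add, ← WithZero.exp_add]; congr 1; ring
    · rw [Valuation.map_mul, Valuation.map_pow, C.val_ν, pow_two]
      calc WithZero.exp (-1 : ℤ) * (Valued.v d₁ * Valued.v d₁)
          ≤ WithZero.exp (-1 : ℤ) * (WithZero.exp (-(ord847 d₀)) * WithZero.exp (-(ord847 d₀)))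
            := mul_le_mul' le_rfl (mul_le_mul' hE hE)
        _ = _ := by rw [← WithZero.exp_add, ← WithZero.exp_add]; congr 1; ring
  have h3 : Valued.v (τ * d₀ * d₁ + ν * d₁ ^ 2) < Valued.v (d₀ ^ 2) := by
    rw [h1]
    refine lt_of_le_of_lt h2 (WithZero.exp_lt_exp.mpr ?_)
    omega
  rw [e, Valuation.map_add_eq_of_lt_left _ h3, h1]

/-- **The Cartan invariant, even case, good node**: `(J, J)`, `J = ord d₀`. -/
theorem cartan_even_good (d₀ d₁ : K) (δ₀ : GL (Fin 2) K)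
    (hδ : (δ₀ : Matrix (Fin 2) (Fin 2) K) = embMat τ ν d₀ d₁) (hE : Valued.v d₁ ≤ Valued.v d₀)
    (hd₀ : d₀ ≠ 0) (n : ℕ) (ξ : K) (hξ : Valued.v ξ ≤ 1)
    (hgood : Valued.v (bNum367 τ ν d₀ d₁ ξ (s ξ)) * WithZero.exp ((n : ℤ)) ≤ Valued.v d₀) :
    cartan (conjGL367 s τ ν δ₀ n ξ) = (ord847 d₀, ord847 d₀) := by
  have hv := val_eq_exp_ord367 hd₀
  have ha : Valued.v (aNum367 τ ν d₀ d₁ ξ (s ξ) / nrm367 τ ν ξ)
      = WithZero.exp (-(ord847 d₀)) := by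
    rw [C.val_div_nrm _ ξ hξ, C.val_aNum_even d₀ d₁ ξ hξ hE hd₀, hv]
  have hb : Valued.v (bNum367 τ ν d₀ d₁ ξ (s ξ) / nrm367 τ ν ξ) * WithZero.exp ((n : ℤ))
      ≤ WithZero.exp (-(ord847 d₀)) := by
    rw [C.val_div_nrm _ ξ hξ, ← hv]
    exact hgood
  have hdet : Valued.v ((conjGL367 s τ ν δ₀ n ξ : GL (Fin 2) K)
      : Matrix (Fin 2) (Fin 2) K).det = WithZero.exp (-(2 * ord847 d₀)) := by
    rw [C.val_det_conjGL, hδ, C.val_det_even d₀ d₁ hE hd₀]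
  have := cartan_conjMat367 C (conjGL367 s τ ν δ₀ n ξ) n _ _
    (C.conjGL_val d₀ d₁ δ₀ hδ n ξ hξ) (2 * ord847 d₀) (ord847 d₀) hdet ha.le hb (Or.inl ha)
  rw [this]
  ext
  · simp; ring
  · simp

/-- **The Cartan invariant, even case, bad node**: `(2J - m, m)`, `m = ord F(ξ) - n`. -/
theorem cartan_even_bad (d₀ d₁ : K) (δ₀ : GL (Fin 2) K)
    (hδ : (δ₀ : Matrix (Fin 2) (Fin 2) K) = embMat τ ν d₀ d₁) (hE : Valued.v d₁ ≤ Valued.v d₀)
    (hd₀ : d₀ ≠ 0) (n : ℕ) (ξ : K) (hξ : Valued.v ξ ≤ 1)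
    (hbad : Valued.v d₀ < Valued.v (bNum367 τ ν d₀ d₁ ξ (s ξ)) * WithZero.exp ((n : ℤ))) :
    cartan (conjGL367 s τ ν δ₀ n ξ)
      = (2 * ord847 d₀ - (ord847 (bNum367 τ ν d₀ d₁ ξ (s ξ)) - n),
          ord847 (bNum367 τ ν d₀ d₁ ξ (s ξ)) - n) := by
  have hv := val_eq_exp_ord367 hd₀
  have hF0 : bNum367 τ ν d₀ d₁ ξ (s ξ) ≠ 0 := by
    intro h
    rw [h, Valuation.map_zero, zero_mul] at hbad
    exact not_lt_bot hbad
  have hvF := val_eq_exp_ord367 hF0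
  have hb : Valued.v (bNum367 τ ν d₀ d₁ ξ (s ξ) / nrm367 τ ν ξ) * WithZero.exp ((n : ℤ))
      = WithZero.exp (-(ord847 (bNum367 τ ν d₀ d₁ ξ (s ξ)) - n)) := by
    rw [C.val_div_nrm _ ξ hξ, hvF, ← WithZero.exp_add]
    congr 1
    ring
  have ha : Valued.v (aNum367 τ ν d₀ d₁ ξ (s ξ) / nrm367 τ ν ξ)
      ≤ WithZero.exp (-(ord847 (bNum367 τ ν d₀ d₁ ξ (s ξ)) - n)) := by
    rw [C.val_div_nrm _ ξ hξ, C.val_aNum_even d₀ d₁ ξ hξ hE hd₀, ← hb,
      C.val_div_nrm _ ξ hξ]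
    exact hbad.le
  have hdet : Valued.v ((conjGL367 s τ ν δ₀ n ξ : GL (Fin 2) K)
      : Matrix (Fin 2) (Fin 2) K).det = WithZero.exp (-(2 * ord847 d₀)) := by
    rw [C.val_det_conjGL, hδ, C.val_det_even d₀ d₁ hE hd₀]
  exact cartan_conjMat367 C (conjGL367 s τ ν δ₀ n ξ) n _ _
    (C.conjGL_val d₀ d₁ δ₀ hδ n ξ hξ) (2 * ord847 d₀) _ hdet ha hb.le (Or.inr hb)

end Ctx367

end Fermat.Agent.LT.T6.H367

end
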