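import Mathlib
import Fermat.Agent.LT.T6.H367.EllCartan

/-!
# Row LT, tower T6, leaf T6.14c `EllCountC` (helper367): the norm of `a + b Π` modulo `ν^{c+1}`

OFF-MAIN.  No gaps, nothing assumed.

For `z = a + b Π ∈ k'[Π]`, `a ≠ 0`, `ord b - ord a ≥ c`:
`N z = P + Q Π` with `ord P = l · ord a` and `Q / P ≡ Tr (b / a)` modulo `ν^{c+1}`.
-/

set_option autoImplicit false

open scoped Matrix

noncomputable section

namespace Fermat.Agent.LT.T6.H367

open Fermat.Agent.LT.T6 Fermat.Agent.LT.T6.H847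

/-! ## 1. Twisted norms and twisted conjugation in a group -/

section Group

variable {Γ : Type} [Group Γ]

theorem twN_conj367 (σ : Γ →* Γ) (x δ : Γ) (m : ℕ) :
    twN σ m (x⁻¹ * δ * σ x) = x⁻¹ * twN σ m δ * (σ^[m]) x := by
  induction m with
  | zero => simp [twN]
  | succ m ih =>
    rw [twN, ih, twN, Function.iterate_succ_apply', map_mul, map_mul, map_inv]
    group

end Group

/-! ## 2. The coefficients of the twisted norm in `k'[Π]` -/

section Coeff

variable {K : Type} [Field K]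

/-- The coordinates `(P_m, Q_m)` of `N_m (a + b Π) = (a + b Π) s(N_{m-1} (a + b Π))`. -/
def nPQ367 (s : K ≃+* K) (τ ν a b : K) : ℕ → K × K
  | 0 => (1, 0)
  | (m + 1) =>
    (a * s (nPQ367 s τ ν a b m).1 - ν * b * s (nPQ367 s τ ν a b m).2,
      a * s (nPQ367 s τ ν a b m).2 + b * s (nPQ367 s τ ν a b m).1
        + τ * b * s (nPQ367 s τ ν a b m).2)

theorem nPQ367_zero (s : K ≃+* K) (τ ν a b : K) : nPQ367 s τ ν a b 0 = (1, 0) := rfl

theorem nPQ367_succ (s : K ≃+* K) (τ ν a b : K) (m : ℕ) :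
    nPQ367 s τ ν a b (m + 1)
      = (a * s (nPQ367 s τ ν a b m).1 - ν * b * s (nPQ367 s τ ν a b m).2,
          a * s (nPQ367 s τ ν a b m).2 + b * s (nPQ367 s τ ν a b m).1
            + τ * b * s (nPQ367 s τ ν a b m).2) := rfl

/-- The matrix of the twisted norm of `a + b Π`. -/
theorem twN_val367 (s : K ≃+* K) (τ ν a b : K) (hsτ : s τ = τ) (hsν : s ν = ν)
    (Z : GL (Fin 2) K) (hZ : (Z : Matrix (Fin 2) (Fin 2) K) = embMat τ ν a b) (m : ℕ) :
    ((twN (glAut s) m Z : GL (Fin 2) K) : Matrix (Fin 2) (Fin 2) K)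
      = embMat τ ν (nPQ367 s τ ν a b m).1 (nPQ367 s τ ν a b m).2 := by
  induction m with
  | zero =>
    rw [twN, nPQ367_zero, Units.val_one, embMat_one367]
  | succ m ih =>
    have h1 : ((glAut s (twN (glAut s) m Z) : GL (Fin 2) K) : Matrix (Fin 2) (Fin 2) K)
        = ((twN (glAut s) m Z : GL (Fin 2) K) : Matrix (Fin 2) (Fin 2) K).map
            (s : K →+* K) := rfl
    rw [twN, Units.val_mul, h1, ih, embMat_map367, hZ, nPQ367_succ]
    simp only [RingHom.coe_coe, hsτ, hsν]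
    rw [embMat_mul367]

/-- Iterating `glAut s` is `glAut (s ^ m)` on the entries. -/
theorem glAut_iterate367 (s : K ≃+* K) (m : ℕ) (X : GL (Fin 2) K) (i j : Fin 2) :
    (((glAut s)^[m] X : GL (Fin 2) K) : Matrix (Fin 2) (Fin 2) K) i j
      = (s ^ m) ((X : Matrix (Fin 2) (Fin 2) K) i j) := by
  induction m generalizing X with
  | zero => simp
  | succ m ih =>
    rw [Function.iterate_succ_apply', pow_succ', RingAut.mul_apply, ← ih]
    rfl

end Coeff

/-! ## 3. The partial traces -/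

section Trace

variable {K : Type} [Field K]

/-- The partial trace `∑_{j < m} s^j x`. -/
def trS367 (s : K ≃+* K) (m : ℕ) (x : K) : K := ∑ j ∈ Finset.range m, (s ^ j) x

theorem trS367_zero (s : K ≃+* K) (x : K) : trS367 s 0 x = 0 := by
  unfold trS367; simp

theorem trS367_succ (s : K ≃+* K) (m : ℕ) (x : K) :
    trS367 s (m + 1) x = s (trS367 s m x) + x := by
  unfold trS367
  rw [Finset.sum_range_succ', map_sum]
  congr 1
  refine Finset.sum_congr rfl fun j _ => ?_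
  rw [pow_succ', RingAut.mul_apply]

theorem trS367_add (s : K ≃+* K) (m : ℕ) (x y : K) :
    trS367 s m (x + y) = trS367 s m x + trS367 s m y := by
  unfold trS367
  rw [← Finset.sum_add_distrib]
  exact Finset.sum_congr rfl fun j _ => map_add _ _ _

theorem trS367_neg (s : K ≃+* K) (m : ℕ) (x : K) :
    trS367 s m (-x) = -trS367 s m x := by
  unfold trS367
  rw [← Finset.sum_neg_distrib]
  exact Finset.sum_congr rfl fun j _ => map_neg _ _

theorem trS367_sub (s : K ≃+* K) (m : ℕ) (x y : K) :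
    trS367 s m (x - y) = trS367 s m x - trS367 s m y := by
  rw [sub_eq_add_neg, trS367_add, trS367_neg, ← sub_eq_add_neg]

theorem pow_fix367 (s : K ≃+* K) (c : K) (hc : s c = c) (j : ℕ) : (s ^ j) c = c := by
  induction j with
  | zero => simp
  | succ j ih => rw [pow_succ', RingAut.mul_apply, ih, hc]

theorem trS367_mul_fix (s : K ≃+* K) (m : ℕ) (c x : K) (hc : s c = c) :
    trS367 s m (c * x) = c * trS367 s m x := by
  unfold trS367
  rw [Finset.mul_sum]
  refine Finset.sum_congr rfl fun j _ => ?_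
  rw [map_mul, pow_fix367 s c hc]

/-- `Tr (s x) = Tr x` when `s ^ l = 1`. -/
theorem trS367_apply_s (s : K ≃+* K) (l : ℕ) (hl : ∀ y : K, (s ^ l) y = y) (x : K) :
    trS367 s l (s x) = trS367 s l x := by
  have h1 : trS367 s (l + 1) x = s (trS367 s l x) + x := trS367_succ s l x
  have h2 : trS367 s (l + 1) x = trS367 s l x + (s ^ l) x := by
    unfold trS367
    rw [Finset.sum_range_succ]
  have h3 : trS367 s l (s x) = s (trS367 s l x) := by
    unfold trS367
    rw [map_sum]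
    refine Finset.sum_congr rfl fun j _ => ?_
    rw [← RingAut.mul_apply, ← RingAut.mul_apply, ← pow_succ, ← pow_succ']
  rw [h3]
  have := h1.symm.trans h2
  rw [hl] at this
  exact add_right_cancel this

variable [Valued K Γ₀]

theorem val_pow367 (s : K ≃+* K) (hs : ∀ y : K, Valued.v (s y) = Valued.v y) (j : ℕ) (y : K) :
    Valued.v ((s ^ j) y) = Valued.v y := by
  induction j with
  | zero => simp
  | succ j ih => rw [pow_succ', RingAut.mul_apply, hs, ih]

theorem val_trS367_le (s : K ≃+* K) (hs : ∀ y : K, Valued.v (s y) = Valued.v y) (m : ℕ)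
    (x : K) (g : Γ₀) (hx : Valued.v x ≤ g) : Valued.v (trS367 s m x) ≤ g := by
  unfold trS367
  by_cases hm : m = 0
  · subst hm
    simp
  · refine Valuation.map_sum_le _ fun j _ => ?_
    rw [val_pow367 s hs]
    exact hx

end Trace

/-! ## 4. The norm modulo `ν^{c+1}` -/

section NormVal

variable {K : Type} [Field K] [Valued K Γ₀]

theorem mul_exp_le367 (W : Γ₀) {u u' : ℤ} (h : u' ≤ u) :
    W * WithZero.exp (-u) ≤ W * WithZero.exp (-u') :=
  mul_le_mul' le_rfl (WithZero.exp_le_exp.mpr (by omega))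

/-- **The norm of `a + b Π` modulo `ν^{c+1}`.**  If `a ≠ 0` and `v b ≤ v a · exp (-c)` then for
every `m`: `v (P_m) = (v a) ^ m` and `v (Q_m - P_m · ∑_{j<m} s^j (b / a)) ≤ v (P_m) · exp (-(c+1))`.
-/
theorem norm_coeff367 {s : K ≃+* K} {τ ν : K} (C : Ctx367 s τ ν) (a b : K) (ha : a ≠ 0)
    (c : ℕ) (hb : Valued.v b ≤ Valued.v a * WithZero.exp (-(c : ℤ))) (m : ℕ) :
    Valued.v (nPQ367 s τ ν a b m).1 = Valued.v a ^ m ∧
      Valued.v ((nPQ367 s τ ν a b m).2 - (nPQ367 s τ ν a b m).1 * trS367 s m (b / a))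
        ≤ Valued.v (nPQ367 s τ ν a b m).1 * WithZero.exp (-((c : ℤ) + 1)) := by
  have hva : Valued.v a ≠ 0 := (Valuation.ne_zero_iff _).2 ha
  have hβ : Valued.v (b / a) ≤ WithZero.exp (-(c : ℤ)) := by
    rw [map_div₀, div_le_iff₀ (zero_lt_iff.mpr hva), mul_comm]
    exact hb
  have hS : ∀ m : ℕ, Valued.v (trS367 s m (b / a)) ≤ WithZero.exp (-(c : ℤ)) := fun m =>
    val_trS367_le s C.val_s m _ _ hβ
  have hc1 : (WithZero.exp (-(c : ℤ)) : Γ₀) ≤ 1 := exp_neg_le_one367 c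
  induction m with
  | zero =>
    rw [nPQ367_zero, trS367_zero]
    simp
  | succ m ih =>
    obtain ⟨hP, hQS⟩ := ih
    set P := (nPQ367 s τ ν a b m).1 with hPdef
    set Q := (nPQ367 s τ ν a b m).2 with hQdef
    set S := trS367 s m (b / a) with hSdef
    have hvP : Valued.v P ≠ 0 := by rw [hP]; exact pow_ne_zero m hva
    set W := Valued.v a * Valued.v P with hW
    have hW0 : W ≠ 0 := mul_ne_zero hva hvP
    -- the bound on `Q`
    have hQ : Valued.v Q ≤ Valued.v P * WithZero.exp (-(c : ℤ)) := by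
      have e : Q = (Q - P * S) + P * S := by ring
      rw [e]
      refine Valuation.map_add_le _ (le_trans hQS (mul_exp_le367 _ (by omega))) ?_
      rw [Valuation.map_mul]
      exact mul_le_mul' le_rfl (hS m)
    have hbQ : Valued.v b * Valued.v (s Q) ≤ W := by
      rw [C.val_s]
      calc Valued.v b * Valued.v Q
          ≤ (Valued.v a * WithZero.exp (-(c : ℤ))) * (Valued.v P * WithZero.exp (-(c : ℤ))) :=
            mul_le_mul' hb hQ
        _ ≤ (Valued.v a * 1) * (Valued.v P * 1) :=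
            mul_le_mul' (mul_le_mul' le_rfl hc1) (mul_le_mul' le_rfl hc1)
        _ = W := by rw [mul_one, mul_one]
    have hbQ' : Valued.v b * Valued.v (s Q) ≤ W * WithZero.exp (-(c : ℤ)) := by
      rw [C.val_s]
      calc Valued.v b * Valued.v Q
          ≤ (Valued.v a * WithZero.exp (-(c : ℤ))) * (Valued.v P * 1) :=
            mul_le_mul' hb (le_trans hQ (mul_le_mul' le_rfl hc1))
        _ = W * WithZero.exp (-(c : ℤ)) := by rw [mul_one, hW]; ac_rfl
    rw [nPQ367_succ]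
    simp only
    rw [← hPdef, ← hQdef]
    have hP' : Valued.v (a * s P - ν * b * s Q) = W := by
      have h1 : Valued.v (a * s P) = W := by rw [Valuation.map_mul, C.val_s]
      have h2 : Valued.v (-(ν * b * s Q)) < Valued.v (a * s P) := by
        rw [h1, Valuation.map_neg, Valuation.map_mul, Valuation.map_mul, C.val_ν, mul_assoc]
        exact (lt_iff_le_exp_mul367 hW0).2 (mul_le_mul' le_rfl hbQ)
      rw [sub_eq_add_neg, Valuation.map_add_eq_of_lt_left _ h2, h1]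
    refine ⟨?_, ?_⟩
    · rw [hP', hW, hP, pow_succ']
    · rw [hP', trS367_succ, ← hSdef]
      have hba : b = a * (b / a) := by field_simp
      have e : a * s Q + b * s P + τ * b * s Q - (a * s P - ν * b * s Q) * (s S + b / a)
          = a * s (Q - P * S) + τ * b * s Q + ν * b * s Q * (s S + b / a) := by
        rw [map_sub, map_mul]
        generalize b / a = β at hba ⊢
        rw [hba]
        ring
      rw [e]
      have hexp : (WithZero.exp (-1 : ℤ) : Γ₀) * WithZero.exp (-(c : ℤ))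
          = WithZero.exp (-((c : ℤ) + 1)) := by
        rw [← WithZero.exp_add]; congr 1; ring
      have hτbQ : WithZero.exp (-1 : ℤ) * (Valued.v b * Valued.v (s Q))
          ≤ W * WithZero.exp (-((c : ℤ) + 1)) := by
        calc WithZero.exp (-1 : ℤ) * (Valued.v b * Valued.v (s Q))
            ≤ WithZero.exp (-1 : ℤ) * (W * WithZero.exp (-(c : ℤ))) :=
              mul_le_mul' le_rfl hbQ'
          _ = W * WithZero.exp (-((c : ℤ) + 1)) := by rw [← hexp]; ac_rfl
      refine Valuation.map_add_le _ (Valuation.map_add_le _ ?_ ?_) ?_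
      · rw [Valuation.map_mul, C.val_s]
        calc Valued.v a * Valued.v (Q - P * S)
            ≤ Valued.v a * (Valued.v P * WithZero.exp (-((c : ℤ) + 1))) :=
              mul_le_mul' le_rfl hQS
          _ = W * WithZero.exp (-((c : ℤ) + 1)) := by rw [hW, mul_assoc]
      · rw [Valuation.map_mul, Valuation.map_mul, mul_assoc]
        exact le_trans (mul_le_mul' C.val_τ_le le_rfl) hτbQ
      · have hSβ : Valued.v (s S + b / a) ≤ 1 :=
          Valuation.map_add_le _ (by rw [C.val_s]; exact le_trans (hS m) hc1)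
            (le_trans hβ hc1)
        rw [Valuation.map_mul, Valuation.map_mul, Valuation.map_mul, C.val_ν]
        calc WithZero.exp (-1 : ℤ) * Valued.v b * Valued.v (s Q) * Valued.v (s S + b / a)
            = WithZero.exp (-1 : ℤ) * (Valued.v b * Valued.v (s Q))
                * Valued.v (s S + b / a) := by rw [mul_assoc (WithZero.exp (-1 : ℤ))]
          _ ≤ (W * WithZero.exp (-((c : ℤ) + 1))) * 1 := mul_le_mul' hτbQ hSβ
          _ = _ := mul_one _

end NormVal

/-! ## 5. The norm of the conjugates `x⁻¹ δ₀ s(x)` -/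

section NormConj

variable {K : Type} [Field K] [Valued K Γ₀]

omit [Valued K Γ₀] in
theorem conjMat367_zero (τ ν a b : K) : conjMat367 τ ν 0 a b = embMat τ ν a b := by
  unfold conjMat367 embMat
  ext i j
  fin_cases i <;> fin_cases j <;> simp

omit [Valued K Γ₀] in
theorem latMat_zero367 (τ ν ξ : K) : latMat τ ν 0 ξ = embMat τ ν 1 ξ := by
  unfold latMat embMat
  ext i j
  fin_cases i <;> fin_cases j <;> simp

namespace Ctx367

variable {s : K ≃+* K} {τ ν : K} (C : Ctx367 s τ ν)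
include C

/-- The twisted norm of `x⁻¹ δ₀ s(x)` is the twisted norm of `δ₀` (in `k'[Π]`). -/
theorem twNorm_conjGL (l : ℕ) (hl : ∀ y : K, (s ^ l) y = y) (δ₀ γ' : GL (Fin 2) K)
    (α' β' : K) (hγ : (γ' : Matrix (Fin 2) (Fin 2) K) = embMat τ ν α' β')
    (hN : twNorm s l δ₀ = γ') (ξ : K) (hξ : Valued.v ξ ≤ 1) :
    twNorm s l (conjGL367 s τ ν δ₀ 0 ξ) = γ' := by
  set X := latGL τ ν 0 ξ with hX
  have hXv : (X : Matrix (Fin 2) (Fin 2) K) = embMat τ ν 1 ξ := by
    rw [hX, C.latGL_val 0 ξ hξ, latMat_zero367]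
  have hit : (glAut s)^[l] X = X := by
    apply Units.ext
    ext i j
    rw [glAut_iterate367, hl]
  have hcomm : γ' * X = X * γ' := by
    apply Units.ext
    rw [Units.val_mul, Units.val_mul, hγ, hXv, embMat_mul367, embMat_mul367]
    congr 1 <;> ring
  unfold twNorm at hN ⊢
  rw [conjGL367_def, ← hX, twN_conj367, hit, hN, mul_assoc, hcomm, ← mul_assoc,
    inv_mul_cancel, one_mul]

/-- The coordinates of the norm of `x⁻¹ δ₀ s(x)`. -/
theorem nPQ_conj (l : ℕ) (hl : ∀ y : K, (s ^ l) y = y) (d₀ d₁ : K) (δ₀ γ' : GL (Fin 2) K)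
    (hδ : (δ₀ : Matrix (Fin 2) (Fin 2) K) = embMat τ ν d₀ d₁)
    (α' β' : K) (hγ : (γ' : Matrix (Fin 2) (Fin 2) K) = embMat τ ν α' β')
    (hN : twNorm s l δ₀ = γ') (ξ : K) (hξ : Valued.v ξ ≤ 1) :
    (nPQ367 s τ ν (aNum367 τ ν d₀ d₁ ξ (s ξ) / nrm367 τ ν ξ)
        (bNum367 τ ν d₀ d₁ ξ (s ξ) / nrm367 τ ν ξ) l).1 = α' ∧
      (nPQ367 s τ ν (aNum367 τ ν d₀ d₁ ξ (s ξ) / nrm367 τ ν ξ)
        (bNum367 τ ν d₀ d₁ ξ (s ξ) / nrm367 τ ν ξ) l).2 = β' := by
  have h1 := C.twNorm_conjGL l hl δ₀ γ' α' β' hγ hN ξ hξ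
  have h2 := C.conjGL_val d₀ d₁ δ₀ hδ 0 ξ hξ
  rw [conjMat367_zero] at h2
  have h3 := twN_val367 s τ ν _ _ C.sτ C.sν (conjGL367 s τ ν δ₀ 0 ξ) h2 l
  unfold twNorm at h1
  rw [h1, hγ] at h3
  have := embMat_inj367 h3
  exact ⟨this.1.symm, this.2.symm⟩

/-- **(N), even case.**  If `ξ` is integral and `v F(ξ) ≤ v d₀ · exp (-c)` then
`v α' = (v d₀) ^ l` and `v (β' - α' · Tr (F(ξ) / aNum(ξ))) ≤ v α' · exp (-(c+1))`. -/
theorem norm_even (l : ℕ) (hl : ∀ y : K, (s ^ l) y = y) (d₀ d₁ : K) (δ₀ γ' : GL (Fin 2) K)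
    (hδ : (δ₀ : Matrix (Fin 2) (Fin 2) K) = embMat τ ν d₀ d₁)
    (α' β' : K) (hγ : (γ' : Matrix (Fin 2) (Fin 2) K) = embMat τ ν α' β')
    (hN : twNorm s l δ₀ = γ') (hE : Valued.v d₁ ≤ Valued.v d₀) (hd₀ : d₀ ≠ 0)
    (ξ : K) (hξ : Valued.v ξ ≤ 1) (c : ℕ)
    (hc : Valued.v (bNum367 τ ν d₀ d₁ ξ (s ξ)) ≤ Valued.v d₀ * WithZero.exp (-(c : ℤ))) :
    Valued.v α' = Valued.v d₀ ^ l ∧
      Valued.v (β' - α' * trS367 s l
          (bNum367 τ ν d₀ d₁ ξ (s ξ) / aNum367 τ ν d₀ d₁ ξ (s ξ)))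
        ≤ Valued.v α' * WithZero.exp (-((c : ℤ) + 1)) := by
  have hPQ := C.nPQ_conj l hl d₀ d₁ δ₀ γ' hδ α' β' hγ hN ξ hξ
  have hNne := C.nrm_ne ξ hξ
  have hva : Valued.v (aNum367 τ ν d₀ d₁ ξ (s ξ) / nrm367 τ ν ξ) = Valued.v d₀ := by
    rw [C.val_div_nrm _ ξ hξ, C.val_aNum_even d₀ d₁ ξ hξ hE hd₀]
  have ha0 : aNum367 τ ν d₀ d₁ ξ (s ξ) / nrm367 τ ν ξ ≠ 0 := by
    intro h
    rw [h, Valuation.map_zero] at hva
    exact (Valuation.ne_zero_iff _).2 hd₀ hva.symm
  have hb : Valued.v (bNum367 τ ν d₀ d₁ ξ (s ξ) / nrm367 τ ν ξ)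
      ≤ Valued.v (aNum367 τ ν d₀ d₁ ξ (s ξ) / nrm367 τ ν ξ) * WithZero.exp (-(c : ℤ)) := by
    rw [hva, C.val_div_nrm _ ξ hξ]
    exact hc
  have key := norm_coeff367 C _ _ ha0 c hb l
  rw [hPQ.1, hPQ.2, hva] at key
  have e : bNum367 τ ν d₀ d₁ ξ (s ξ) / nrm367 τ ν ξ
      / (aNum367 τ ν d₀ d₁ ξ (s ξ) / nrm367 τ ν ξ)
      = bNum367 τ ν d₀ d₁ ξ (s ξ) / aNum367 τ ν d₀ d₁ ξ (s ξ) := by
    field_simp
  rw [e] at key
  exact key

end Ctx367

end NormConj

end Fermat.Agent.LT.T6.H367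

end
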