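import Mathlib
import Fermat.Agent.LT.T6.H367.EllNorm
import Fermat.Agent.LT.T6.H367.EllFib

/-!
# Row LT, tower T6, leaf T6.14c `EllCountC` (helper367): lifting from `νⁿ` to `νⁿ⁺¹`

OFF-MAIN.  No gaps, nothing assumed.

Even case (`v d₁ ≤ v d₀`).  `F(ξ)` = the `Π`-coordinate of `δ₀ s(x) x̄`, `x = 1 + ξ Π`,
`A(ξ)` = its `1`-coordinate.  The state of `ξ` at level `n`: `r = 0` if `ord F(ξ) ≥ J + n`
(`J = ord d₀`), and `r = J + n - ord F(ξ)` otherwise.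
`F(ξ + νⁿ t) ≡ F(ξ) + νⁿ A(ξ) (s t - t)` modulo `νⁿ⁺¹ d₀`.
-/

set_option autoImplicit false

open scoped Matrix

noncomputable section

namespace Fermat.Agent.LT.T6.H367

open Fermat.Agent.LT.T6 Fermat.Agent.LT.T6.H847

/-! ## 1. The value group, ultrametric inequalities -/

theorem mul_exp_le_iff367 (x y : Γ₀) (n : ℤ) :
    x * WithZero.exp n ≤ y ↔ x ≤ y * WithZero.exp (-n) := by
  rw [WithZero.exp_neg, le_mul_inv_iff₀ WithZero.exp_pos]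

section Ultra

variable {K : Type} [Field K] [Valued K Γ₀]

theorem ultra367 (a b : K) (c : Γ₀) (h : Valued.v (a - b) ≤ c) :
    (Valued.v a ≤ c ↔ Valued.v b ≤ c) ∧ (¬ Valued.v b ≤ c → Valued.v a = Valued.v b) := by
  refine ⟨⟨fun ha => ?_, fun hb => ?_⟩, fun hb => ?_⟩
  · have e : b = a - (a - b) := by ring
    rw [e]
    exact Valuation.map_sub_le _ ha h
  · have e : a = (a - b) + b := by ring
    rw [e]
    exact Valuation.map_add_le _ h hb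
  · have hlt : Valued.v (a - b) < Valued.v b := lt_of_le_of_lt h (not_le.1 hb)
    have e : a = b + (a - b) := by ring
    rw [e, Valuation.map_add_eq_of_lt_left _ hlt]

theorem intA367 {x y : K} (hx : Valued.v x ≤ 1) (hy : Valued.v y ≤ 1) : Valued.v (x + y) ≤ 1 :=
  Valuation.map_add_le _ hx hy

theorem intS367 {x y : K} (hx : Valued.v x ≤ 1) (hy : Valued.v y ≤ 1) : Valued.v (x - y) ≤ 1 :=
  Valuation.map_sub_le _ hx hy

theorem intM367 {x y : K} (hx : Valued.v x ≤ 1) (hy : Valued.v y ≤ 1) : Valued.v (x * y) ≤ 1 := by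
  rw [Valuation.map_mul]
  exact mul_le_one' hx hy

theorem intN367 {x : K} (hx : Valued.v x ≤ 1) : Valued.v (-x) ≤ 1 := by
  rw [Valuation.map_neg]
  exact hx

end Ultra

/-! ## 2. The state -/

section State

variable {K : Type} [Field K] [Valued K Γ₀]

open Classical in
/-- The state of `ξ` at level `n`: `0` if `ord F(ξ) ≥ J + n`, and `J + n - ord F(ξ)` otherwise. -/
def rr367 (s : K ≃+* K) (τ ν d₀ d₁ : K) (n : ℕ) (ξ : K) : ℕ :=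
  if Valued.v (bNum367 τ ν d₀ d₁ ξ (s ξ)) * WithZero.exp ((n : ℤ)) ≤ Valued.v d₀ then 0
  else (ord847 d₀ + n - ord847 (bNum367 τ ν d₀ d₁ ξ (s ξ))).toNat

theorem ord_of_bad367 {d₀ : K} (hd₀ : d₀ ≠ 0) (x : K) (n : ℕ)
    (h : Valued.v d₀ < Valued.v x * WithZero.exp ((n : ℤ))) :
    x ≠ 0 ∧ 0 < ord847 d₀ + n - ord847 x := by
  have hx : x ≠ 0 := by
    intro hx
    rw [hx, Valuation.map_zero, zero_mul] at h
    exact not_lt_bot h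
  refine ⟨hx, ?_⟩
  rw [val_eq_exp_ord367 hd₀, val_eq_exp_ord367 hx, ← WithZero.exp_add, WithZero.exp_lt_exp] at h
  omega

namespace Ctx367

variable {s : K ≃+* K} {τ ν : K} (C : Ctx367 s τ ν)
include C

/-- **The lifting congruence**: `F(ξ + νⁿ t) ≡ F(ξ) + νⁿ A(ξ) (s t - t)` modulo `νⁿ⁺¹ d₀`. -/
theorem lip (d₀ d₁ : K) (hE : Valued.v d₁ ≤ Valued.v d₀) (hd₀ : d₀ ≠ 0) (n : ℕ) (ξ t : K)
    (hξ : Valued.v ξ ≤ 1) (ht : Valued.v t ≤ 1) :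
    Valued.v (bNum367 τ ν d₀ d₁ (ξ + ν ^ n * t) (s (ξ + ν ^ n * t))
        - bNum367 τ ν d₀ d₁ ξ (s ξ) - ν ^ n * aNum367 τ ν d₀ d₁ ξ (s ξ) * (s t - t))
      ≤ Valued.v d₀ * WithZero.exp (-((n + 1 : ℕ) : ℤ)) := by
  have hν0 := C.ν_ne
  obtain ⟨τ', hτ', hτeq⟩ : ∃ τ' : K, Valued.v τ' ≤ 1 ∧ τ = ν * τ' := by
    refine ⟨τ / ν, ?_, by field_simp⟩
    rw [map_div₀, C.val_ν]
    exact div_le_one_of_le₀ C.val_τ_le zero_le
  obtain ⟨δ, hδ, hδeq⟩ : ∃ δ : K, Valued.v δ ≤ 1 ∧ d₁ = d₀ * δ := by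
    refine ⟨d₁ / d₀, ?_, by field_simp⟩
    rw [map_div₀]
    exact div_le_one_of_le₀ hE zero_le
  have hsξ : Valued.v (s ξ) ≤ 1 := by rw [C.val_s]; exact hξ
  have hst : Valued.v (s t) ≤ 1 := by rw [C.val_s]; exact ht
  have hνn : Valued.v (ν ^ n) ≤ 1 := by rw [C.val_ν_pow]; exact exp_neg_le_one367 n
  have key : bNum367 τ ν d₀ d₁ (ξ + ν ^ n * t) (s (ξ + ν ^ n * t))
        - bNum367 τ ν d₀ d₁ ξ (s ξ) - ν ^ n * aNum367 τ ν d₀ d₁ ξ (s ξ) * (s t - t)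
      = ν ^ (n + 1) * d₀ * (-(τ' * ξ + ξ * s ξ) * (s t - t) + δ * (s ξ - ξ) * (s t - t)
          + δ * τ' * t + δ * (ξ * s t + t * s ξ + ν ^ n * t * s t) + τ' * δ * (s t - t)) := by
    unfold bNum367 aNum367
    rw [map_add, map_mul, map_pow, C.sν, hδeq, hτeq]
    ring
  have hP : Valued.v (-(τ' * ξ + ξ * s ξ) * (s t - t) + δ * (s ξ - ξ) * (s t - t)
          + δ * τ' * t + δ * (ξ * s t + t * s ξ + ν ^ n * t * s t) + τ' * δ * (s t - t)) ≤ 1 :=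
    intA367 (intA367 (intA367 (intA367
      (intM367 (intN367 (intA367 (intM367 hτ' hξ) (intM367 hξ hsξ))) (intS367 hst ht))
      (intM367 (intM367 hδ (intS367 hsξ hξ)) (intS367 hst ht)))
      (intM367 (intM367 hδ hτ') ht))
      (intM367 hδ (intA367 (intA367 (intM367 hξ hst) (intM367 ht hsξ))
        (intM367 (intM367 hνn ht) hst))))
      (intM367 (intM367 hτ' hδ) (intS367 hst ht))
  rw [key, Valuation.map_mul, Valuation.map_mul, C.val_ν_pow]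
  calc WithZero.exp (-((n + 1 : ℕ) : ℤ)) * Valued.v d₀ * _
      ≤ WithZero.exp (-((n + 1 : ℕ) : ℤ)) * Valued.v d₀ * 1 := mul_le_mul' le_rfl hP
    _ = _ := by rw [mul_one, mul_comm]

/-- The crude form: `F(ξ + νⁿ t) ≡ F(ξ)` modulo `νⁿ d₀`. -/
theorem lipC (d₀ d₁ : K) (hE : Valued.v d₁ ≤ Valued.v d₀) (hd₀ : d₀ ≠ 0) (n : ℕ) (ξ t : K)
    (hξ : Valued.v ξ ≤ 1) (ht : Valued.v t ≤ 1) :
    Valued.v (bNum367 τ ν d₀ d₁ (ξ + ν ^ n * t) (s (ξ + ν ^ n * t))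
        - bNum367 τ ν d₀ d₁ ξ (s ξ))
      ≤ Valued.v d₀ * WithZero.exp (-(n : ℤ)) := by
  have h1 := C.lip d₀ d₁ hE hd₀ n ξ t hξ ht
  have h2 : Valued.v (ν ^ n * aNum367 τ ν d₀ d₁ ξ (s ξ) * (s t - t))
      ≤ Valued.v d₀ * WithZero.exp (-(n : ℤ)) := by
    rw [Valuation.map_mul, Valuation.map_mul, C.val_ν_pow, C.val_aNum_even d₀ d₁ ξ hξ hE hd₀]
    calc WithZero.exp (-(n : ℤ)) * Valued.v d₀ * Valued.v (s t - t)
        ≤ WithZero.exp (-(n : ℤ)) * Valued.v d₀ * 1 := mul_le_mul' le_rfl (C.val_sub_le t ht)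
      _ = _ := by rw [mul_one, mul_comm]
  have e : bNum367 τ ν d₀ d₁ (ξ + ν ^ n * t) (s (ξ + ν ^ n * t)) - bNum367 τ ν d₀ d₁ ξ (s ξ)
      = (bNum367 τ ν d₀ d₁ (ξ + ν ^ n * t) (s (ξ + ν ^ n * t))
          - bNum367 τ ν d₀ d₁ ξ (s ξ) - ν ^ n * aNum367 τ ν d₀ d₁ ξ (s ξ) * (s t - t))
        + ν ^ n * aNum367 τ ν d₀ d₁ ξ (s ξ) * (s t - t) := by ring
  rw [e]
  exact Valuation.map_add_le _
    (le_trans h1 (mul_le_mul' le_rfl (exp_neg_succ_lt367 n).le)) h2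

/-- The Cartan invariant in terms of the state. -/
theorem cartan_rr (d₀ d₁ : K) (δ₀ : GL (Fin 2) K)
    (hδ : (δ₀ : Matrix (Fin 2) (Fin 2) K) = embMat τ ν d₀ d₁) (hE : Valued.v d₁ ≤ Valued.v d₀)
    (hd₀ : d₀ ≠ 0) (n : ℕ) (ξ : K) (hξ : Valued.v ξ ≤ 1) :
    cartan (conjGL367 s τ ν δ₀ n ξ)
      = (ord847 d₀ + (rr367 s τ ν d₀ d₁ n ξ : ℤ), ord847 d₀ - (rr367 s τ ν d₀ d₁ n ξ : ℤ)) := by
  by_cases hg : Valued.v (bNum367 τ ν d₀ d₁ ξ (s ξ)) * WithZero.exp ((n : ℤ)) ≤ Valued.v d₀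
  · rw [C.cartan_even_good d₀ d₁ δ₀ hδ hE hd₀ n ξ hξ hg, rr367, if_pos hg]
    simp
  · have hbad := not_le.1 hg
    obtain ⟨_, hpos⟩ := ord_of_bad367 hd₀ _ n hbad
    rw [C.cartan_even_bad d₀ d₁ δ₀ hδ hE hd₀ n ξ hξ hbad, rr367, if_neg hg,
      Int.toNat_of_nonneg hpos.le]
    ext
    · simp only; ring
    · simp only; ring

/-- The state at level `n` depends on `ξ` modulo `νⁿ` only. -/
theorem rr_congr (d₀ d₁ : K) (hE : Valued.v d₁ ≤ Valued.v d₀) (hd₀ : d₀ ≠ 0) (n : ℕ)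
    (x y : K) (hx : Valued.v x ≤ 1) (hy : Valued.v y ≤ 1)
    (hxy : Valued.v (x - y) ≤ WithZero.exp (-(n : ℤ))) :
    rr367 s τ ν d₀ d₁ n x = rr367 s τ ν d₀ d₁ n y := by
  have hνn0 : ν ^ n ≠ 0 := pow_ne_zero n C.ν_ne
  have ht : Valued.v ((x - y) / ν ^ n) ≤ 1 := by
    rw [map_div₀, C.val_ν_pow]
    exact div_le_one_of_le₀ hxy zero_le
  have hx' : x = y + ν ^ n * ((x - y) / ν ^ n) := by
    field_simp
    ring
  have hlip := C.lipC d₀ d₁ hE hd₀ n y _ hy ht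
  rw [← hx'] at hlip
  obtain ⟨h1, h2⟩ := ultra367 _ _ _ hlip
  unfold rr367
  by_cases hg : Valued.v (bNum367 τ ν d₀ d₁ y (s y)) * WithZero.exp ((n : ℤ)) ≤ Valued.v d₀
  · have hg' : Valued.v (bNum367 τ ν d₀ d₁ x (s x)) * WithZero.exp ((n : ℤ)) ≤ Valued.v d₀ :=
      (mul_exp_le_iff367 _ _ _).2 (h1.2 ((mul_exp_le_iff367 _ _ _).1 hg))
    rw [if_pos hg, if_pos hg']
  · have hb : ¬ Valued.v (bNum367 τ ν d₀ d₁ y (s y))
        ≤ Valued.v d₀ * WithZero.exp (-(n : ℤ)) := fun h => hg ((mul_exp_le_iff367 _ _ _).2 h)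
    have hv := h2 hb
    have hg' : ¬ Valued.v (bNum367 τ ν d₀ d₁ x (s x)) * WithZero.exp ((n : ℤ))
        ≤ Valued.v d₀ := by
      rw [hv]
      exact hg
    rw [if_neg hg, if_neg hg']
    have : ord847 (bNum367 τ ν d₀ d₁ x (s x)) = ord847 (bNum367 τ ν d₀ d₁ y (s y)) := by
      unfold ord847
      rw [hv]
    rw [this]

/-- Level `0`: the state is `0`. -/
theorem rr_zero (d₀ d₁ : K) (hE : Valued.v d₁ ≤ Valued.v d₀) (ξ : K) (hξ : Valued.v ξ ≤ 1) :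
    rr367 s τ ν d₀ d₁ 0 ξ = 0 := by
  unfold rr367
  rw [if_pos]
  simpa using C.val_bNum_even d₀ d₁ ξ hξ hE

/-- The children of a bad node are bad, the state increases by `1`. -/
theorem child_bad (d₀ d₁ : K) (hE : Valued.v d₁ ≤ Valued.v d₀) (hd₀ : d₀ ≠ 0) (n : ℕ)
    (ξ t : K) (hξ : Valued.v ξ ≤ 1) (ht : Valued.v t ≤ 1)
    (hb : ¬ Valued.v (bNum367 τ ν d₀ d₁ ξ (s ξ)) * WithZero.exp ((n : ℤ)) ≤ Valued.v d₀) :
    rr367 s τ ν d₀ d₁ (n + 1) (ξ + ν ^ n * t) = rr367 s τ ν d₀ d₁ n ξ + 1 := by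
  have hlip := C.lipC d₀ d₁ hE hd₀ n ξ t hξ ht
  obtain ⟨_, h2⟩ := ultra367 _ _ _ hlip
  have hb' : ¬ Valued.v (bNum367 τ ν d₀ d₁ ξ (s ξ))
      ≤ Valued.v d₀ * WithZero.exp (-(n : ℤ)) := fun h => hb ((mul_exp_le_iff367 _ _ _).2 h)
  have hv := h2 hb'
  have hbad := not_le.1 hb
  have hg' : ¬ Valued.v (bNum367 τ ν d₀ d₁ (ξ + ν ^ n * t) (s (ξ + ν ^ n * t)))
      * WithZero.exp (((n + 1 : ℕ) : ℤ)) ≤ Valued.v d₀ := by
    rw [hv]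
    refine not_le.2 (lt_of_lt_of_le hbad (mul_le_mul' le_rfl (WithZero.exp_le_exp.2 ?_)))
    push_cast
    omega
  obtain ⟨_, hpos⟩ := ord_of_bad367 hd₀ _ n hbad
  unfold rr367
  rw [if_neg hb, if_neg hg']
  have : ord847 (bNum367 τ ν d₀ d₁ (ξ + ν ^ n * t) (s (ξ + ν ^ n * t)))
      = ord847 (bNum367 τ ν d₀ d₁ ξ (s ξ)) := by
    unfold ord847
    rw [hv]
  rw [this]
  push_cast
  omega

/-- The children of a good node: the state is `0` if `s t - t ≡ ζ`, `ζ = - F(ξ) / (νⁿ A(ξ))`,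
and `1` otherwise. -/
theorem child_good (d₀ d₁ : K) (hE : Valued.v d₁ ≤ Valued.v d₀) (hd₀ : d₀ ≠ 0) (n : ℕ)
    (ξ t : K) (hξ : Valued.v ξ ≤ 1) (ht : Valued.v t ≤ 1)
    (hg : Valued.v (bNum367 τ ν d₀ d₁ ξ (s ξ)) * WithZero.exp ((n : ℤ)) ≤ Valued.v d₀) :
    Valued.v (-(bNum367 τ ν d₀ d₁ ξ (s ξ)) / (ν ^ n * aNum367 τ ν d₀ d₁ ξ (s ξ))) ≤ 1 ∧
    rr367 s τ ν d₀ d₁ (n + 1) (ξ + ν ^ n * t)
      = if Valued.v (s t - t
          - -(bNum367 τ ν d₀ d₁ ξ (s ξ)) / (ν ^ n * aNum367 τ ν d₀ d₁ ξ (s ξ))) < 1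
        then 0 else 1 := by
  classical
  have hv₀ : Valued.v d₀ ≠ 0 := (Valuation.ne_zero_iff _).2 hd₀
  have hνn0 : ν ^ n ≠ 0 := pow_ne_zero n C.ν_ne
  have hvA := C.val_aNum_even d₀ d₁ ξ hξ hE hd₀
  have hA0 : aNum367 τ ν d₀ d₁ ξ (s ξ) ≠ 0 := by
    intro h
    rw [h, Valuation.map_zero] at hvA
    exact hv₀ hvA.symm
  have hg1 := (mul_exp_le_iff367 _ _ _).1 hg
  set F := bNum367 τ ν d₀ d₁ ξ (s ξ) with hF
  set A := aNum367 τ ν d₀ d₁ ξ (s ξ) with hA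
  set F' := bNum367 τ ν d₀ d₁ (ξ + ν ^ n * t) (s (ξ + ν ^ n * t)) with hF'
  set c := Valued.v d₀ * WithZero.exp (-(n : ℤ)) with hc
  have hc0 : c ≠ 0 := mul_ne_zero hv₀ WithZero.exp_ne_zero
  have hc' : Valued.v d₀ * WithZero.exp (-((n + 1 : ℕ) : ℤ)) = WithZero.exp (-1 : ℤ) * c := by
    rw [exp_neg_succ367, hc]
    ac_rfl
  have hvνA : Valued.v (ν ^ n * A) = c := by
    rw [Valuation.map_mul, C.val_ν_pow, hvA, hc, mul_comm]
  have hζ : Valued.v (-F / (ν ^ n * A)) ≤ 1 := by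
    rw [map_div₀, Valuation.map_neg, hvνA]
    exact div_le_one_of_le₀ hg1 zero_le
  refine ⟨hζ, ?_⟩
  set w := s t - t - -F / (ν ^ n * A) with hw
  have hX : F + ν ^ n * A * (s t - t) = ν ^ n * A * w := by
    rw [hw]
    field_simp
    ring
  have hlip := C.lip d₀ d₁ hE hd₀ n ξ t hξ ht
  rw [← hF, ← hA, ← hF', hc'] at hlip
  have e : F' - F - ν ^ n * A * (s t - t) = F' - ν ^ n * A * w := by
    rw [← hX]
    ring
  rw [e] at hlip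
  obtain ⟨h1, _⟩ := ultra367 _ _ _ hlip
  have hvX : Valued.v (ν ^ n * A * w) = c * Valued.v w := by
    rw [Valuation.map_mul, hvνA]
  have hlipC := C.lipC d₀ d₁ hE hd₀ n ξ t hξ ht
  rw [← hF, ← hF', ← hc] at hlipC
  have hF'c : Valued.v F' ≤ c := (ultra367 _ _ _ hlipC).1.2 hg1
  by_cases hw1 : Valued.v w < 1
  · rw [if_pos hw1]
    have hXle : Valued.v (ν ^ n * A * w) ≤ WithZero.exp (-1 : ℤ) * c := by
      rw [hvX, mul_comm]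
      exact mul_le_mul' (lt_one_iff367.1 hw1) le_rfl
    have hF'le := h1.2 hXle
    rw [← hc'] at hF'le
    unfold rr367
    rw [if_pos ((mul_exp_le_iff367 _ _ _).2 hF'le)]
  · rw [if_neg hw1]
    have hXnot : ¬ Valued.v (ν ^ n * A * w) ≤ WithZero.exp (-1 : ℤ) * c := by
      rw [hvX]
      intro h
      have h3 : c * Valued.v w < c * 1 := by
        rw [mul_one]
        exact (lt_iff_le_exp_mul367 hc0).2 h
      exact hw1 ((mul_lt_mul_iff_right₀ (zero_lt_iff.2 hc0)).1 h3)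
    have hF'not : ¬ Valued.v F' ≤ WithZero.exp (-1 : ℤ) * c := fun h => hXnot (h1.1 h)
    have hF'eq : Valued.v F' = c := by
      refine le_antisymm hF'c (not_lt.1 fun h => hF'not ((lt_iff_le_exp_mul367 hc0).1 h))
    have hbad : ¬ Valued.v F' * WithZero.exp (((n + 1 : ℕ) : ℤ)) ≤ Valued.v d₀ := by
      intro h
      have := (mul_exp_le_iff367 _ _ _).1 h
      rw [hc'] at this
      exact hF'not this
    have hord : ord847 F' = ord847 d₀ + n := by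
      apply ord_eq_of_val367
      rw [hF'eq, hc, val_eq_exp_ord367 hd₀, ← WithZero.exp_add]
      congr 1
      ring
    unfold rr367
    rw [← hF', if_neg hbad, hord]
    push_cast
    omega

/-- `v β' ≤ v α'` and `v α' = (v d₀) ^ l`. -/
theorem beta_le_alpha (l : ℕ) (hl : ∀ y : K, (s ^ l) y = y) (d₀ d₁ : K) (δ₀ γ' : GL (Fin 2) K)
    (hδ : (δ₀ : Matrix (Fin 2) (Fin 2) K) = embMat τ ν d₀ d₁)
    (α' β' : K) (hγ : (γ' : Matrix (Fin 2) (Fin 2) K) = embMat τ ν α' β')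
    (hN : twNorm s l δ₀ = γ') (hE : Valued.v d₁ ≤ Valued.v d₀) (hd₀ : d₀ ≠ 0) :
    Valued.v α' = Valued.v d₀ ^ l ∧ Valued.v β' ≤ Valued.v α' := by
  have h0 : Valued.v (0 : K) ≤ 1 := by simp
  have hF := C.val_bNum_even d₀ d₁ 0 h0 hE
  have hvA := C.val_aNum_even d₀ d₁ 0 h0 hE hd₀
  obtain ⟨hα, hβ⟩ := C.norm_even l hl d₀ d₁ δ₀ γ' hδ α' β' hγ hN hE hd₀ 0 h0 0
    (by simpa using hF)
  refine ⟨hα, ?_⟩
  have hu : Valued.v (trS367 s l (bNum367 τ ν d₀ d₁ 0 (s 0) / aNum367 τ ν d₀ d₁ 0 (s 0))) ≤ 1 := by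
    refine val_trS367_le s C.val_s l _ 1 ?_
    rw [map_div₀, hvA]
    exact div_le_one_of_le₀ hF zero_le
  have hβ' : Valued.v (β' - α' * trS367 s l
      (bNum367 τ ν d₀ d₁ 0 (s 0) / aNum367 τ ν d₀ d₁ 0 (s 0))) ≤ Valued.v α' := by
    refine le_trans hβ ?_
    calc Valued.v α' * WithZero.exp (-(((0 : ℕ) : ℤ) + 1)) ≤ Valued.v α' * 1 :=
          mul_le_mul' le_rfl (by
            rw [← WithZero.exp_zero]
            exact WithZero.exp_le_exp.2 (by simp))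
      _ = _ := mul_one _
  refine ((ultra367 _ _ _ hβ').1).2 ?_
  rw [Valuation.map_mul]
  calc Valued.v α' * _ ≤ Valued.v α' * 1 := mul_le_mul' le_rfl hu
    _ = _ := mul_one _

/-- **The trace criterion.**  For a good node `ξ` at level `n`:
`Tr ζ ≡ 0` iff `ord β' - ord α' ≥ n + 1`. -/
theorem trace_crit (l : ℕ) (hl : ∀ y : K, (s ^ l) y = y) (d₀ d₁ : K) (δ₀ γ' : GL (Fin 2) K)
    (hδ : (δ₀ : Matrix (Fin 2) (Fin 2) K) = embMat τ ν d₀ d₁)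
    (α' β' : K) (hγ : (γ' : Matrix (Fin 2) (Fin 2) K) = embMat τ ν α' β')
    (hN : twNorm s l δ₀ = γ') (hE : Valued.v d₁ ≤ Valued.v d₀) (hd₀ : d₀ ≠ 0) (n : ℕ)
    (ξ : K) (hξ : Valued.v ξ ≤ 1)
    (hg : Valued.v (bNum367 τ ν d₀ d₁ ξ (s ξ)) * WithZero.exp ((n : ℤ)) ≤ Valued.v d₀) :
    Valued.v (trS367 s l
        (-(bNum367 τ ν d₀ d₁ ξ (s ξ)) / (ν ^ n * aNum367 τ ν d₀ d₁ ξ (s ξ)))) < 1
      ↔ Valued.v β' ≤ Valued.v α' * WithZero.exp (-((n + 1 : ℕ) : ℤ)) := by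
  have hv₀ : Valued.v d₀ ≠ 0 := (Valuation.ne_zero_iff _).2 hd₀
  have hνn0 : ν ^ n ≠ 0 := pow_ne_zero n C.ν_ne
  have hvA := C.val_aNum_even d₀ d₁ ξ hξ hE hd₀
  have hA0 : aNum367 τ ν d₀ d₁ ξ (s ξ) ≠ 0 := by
    intro h
    rw [h, Valuation.map_zero] at hvA
    exact hv₀ hvA.symm
  obtain ⟨hα, hβ⟩ := C.norm_even l hl d₀ d₁ δ₀ γ' hδ α' β' hγ hN hE hd₀ ξ hξ n
    ((mul_exp_le_iff367 _ _ _).1 hg)
  have hvα : Valued.v α' ≠ 0 := by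
    rw [hα]
    exact pow_ne_zero l hv₀
  set F := bNum367 τ ν d₀ d₁ ξ (s ξ) with hF
  set A := aNum367 τ ν d₀ d₁ ξ (s ξ) with hA
  set u := trS367 s l (F / A) with hu
  have hsν : s (-(ν ^ n)⁻¹) = -(ν ^ n)⁻¹ := by
    rw [map_neg, map_inv₀, map_pow, C.sν]
  have e1 : -F / (ν ^ n * A) = -(ν ^ n)⁻¹ * (F / A) := by
    field_simp
  have hexp : (WithZero.exp (-((n + 1 : ℕ) : ℤ)) : Γ₀)
      = WithZero.exp (-((n : ℤ) + 1)) := by
    congr 1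
  have hexp2 : (WithZero.exp (-((n + 1 : ℕ) : ℤ)) : Γ₀)
      = WithZero.exp (-1 : ℤ) * WithZero.exp (-(n : ℤ)) := exp_neg_succ367 n
  rw [e1, trS367_mul_fix s l _ _ hsν, ← hu, Valuation.map_mul, Valuation.map_neg, map_inv₀,
    C.val_ν_pow, ← WithZero.exp_neg, neg_neg]
  rw [← hexp] at hβ
  have h1 := (ultra367 _ _ _ hβ).1
  rw [Valuation.map_mul, mul_le_mul_iff_right₀ (zero_lt_iff.2 hvα)] at h1
  rw [h1, hexp2]
  constructor
  · intro h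
    have h2 : Valued.v u * WithZero.exp ((n : ℤ)) < 1 := by
      rw [mul_comm]
      exact h
    have h3 := lt_one_iff367.1 h2
    have h4 := (mul_exp_le_iff367 _ _ _).1 h3
    exact h4
  · intro h
    have h3 := (mul_exp_le_iff367 _ _ _).2 h
    rw [mul_comm]
    exact lt_one_iff367.2 h3

end Ctx367

end State

end Fermat.Agent.LT.T6.H367

end
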