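import Mathlib
import Fermat.Agent.LT.T6.H367.EllNorm
import Fermat.Agent.LT.T6.H400.ResFaithful
import Fermat.Agent.LT.T6.H131.ResFixed
import Fermat.Agent.LT.T6.H555.Hilbert90Mod

/-!
# Row LT, tower T6, leaf T6.14c `EllCountC` (helper367): the count in the residue field

OFF-MAIN.  No gaps, nothing assumed.  Uses the closed leaves `resFaithful400` (helper400),
`resFixedC_of_resFaithfulC_h131` (helper131) and `dedekind555` (helper555), byte-identical copies.

`k'/k` unramified cyclic of degree `l` with generator `s`, `T` a residue system of `k'`: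
`#{t ∈ T : s t - t ≡ ζ mod 𝔪'} = q` if `Tr ζ ≡ 0`, and `0` otherwise.
-/

set_option autoImplicit false

noncomputable section

namespace Fermat.Agent.LT.T6.H367

open Fermat.Agent.LT.T6 Fermat.Agent.LT.T6.H847

section Res

variable {k k' : Type} [Field k] [Field k'] [Valued k Γ₀] [Valued k' Γ₀]
  {q l : ℕ} {i : k →+* k'} {s : k' ≃+* k'}

/-- There is an integral `θ` whose trace is a unit. -/
theorem exists_trace_unit367 (hk : IsLocalField k q) (hk' : IsLocalField k' (q ^ l))
    (hext : IsLocalExt k k' l 1 i s) :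
    ∃ θ : k', Valued.v θ ≤ 1 ∧ Valued.v (trS367 s l θ) = 1 := by
  classical
  have hF : ∀ m : ℕ, 0 < m → m < l →
      ∃ x : k', Valued.v x ≤ 1 ∧ Valued.v ((s ^ m) x - x) = 1 :=
    fun m hm hml => H400.resFaithful400 k k' q l i s hk hk' hext m hm hml
  have hl : 0 < l := hext.cyc.pos
  obtain ⟨θ, hθ, hθ1⟩ := H555.dedekind555 s hext.val_s l hF l (Finset.range l) (fun _ => 1)
    (fun j hj => Finset.mem_range.1 hj) (fun j _ => by simp)
    (by simp) hl
  refine ⟨θ, hθ, ?_⟩
  unfold trS367
  simpa using hθ1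

/-- `s` fixes the trace. -/
theorem s_trS367 (hext : IsLocalExt k k' l 1 i s) (x : k') :
    s (trS367 s l x) = trS367 s l x := by
  have h3 : trS367 s l (s x) = s (trS367 s l x) := by
    unfold trS367
    rw [map_sum]
    refine Finset.sum_congr rfl fun j _ => ?_
    rw [← RingAut.mul_apply, ← RingAut.mul_apply, ← pow_succ, ← pow_succ']
  rw [← h3]
  exact trS367_apply_s s l hext.cyc.order x

/-- **Additive Hilbert 90 modulo the maximal ideal.** -/
theorem additive_hilbert90_367 (hk : IsLocalField k q) (hk' : IsLocalField k' (q ^ l))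
    (hext : IsLocalExt k k' l 1 i s) (ζ : k') (hζ : Valued.v ζ ≤ 1)
    (htr : Valued.v (trS367 s l ζ) < 1) :
    ∃ η : k', Valued.v η ≤ 1 ∧ Valued.v (s η - η - ζ) < 1 := by
  obtain ⟨θ, hθ, hθ1⟩ := exists_trace_unit367 hk hk' hext
  have hs := hext.val_s
  set u := trS367 s l θ with hu
  have hu0 : u ≠ 0 := by
    intro h
    rw [h, Valuation.map_zero] at hθ1
    exact zero_ne_one hθ1
  have hsu : s u = u := s_trS367 hext θ
  -- the auxiliary sequence
  set g : ℕ → k' := fun j => (trS367 s j ζ - ζ) * (s ^ j) θ with hg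
  set η : k' := -(u⁻¹ * ∑ j ∈ Finset.range l, trS367 s j ζ * (s ^ j) θ) with hη
  have hsum1 : ∑ j ∈ Finset.range l, trS367 s j ζ * (s ^ j) θ
      = ∑ j ∈ Finset.range l, g j + ζ * u := by
    rw [hu]
    unfold trS367
    rw [Finset.mul_sum, ← Finset.sum_add_distrib]
    refine Finset.sum_congr rfl fun j _ => ?_
    rw [hg]
    simp only
    unfold trS367
    ring
  have hsum2 : s (∑ j ∈ Finset.range l, trS367 s j ζ * (s ^ j) θ)
      = ∑ j ∈ Finset.range l, g (j + 1) := by
    rw [map_sum]
    refine Finset.sum_congr rfl fun j _ => ?_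
    rw [hg]
    simp only
    rw [map_mul, trS367_succ, pow_succ', RingAut.mul_apply]
    ring
  have hsum3 : ∑ j ∈ Finset.range l, g (j + 1)
      = ∑ j ∈ Finset.range l, g j + trS367 s l ζ * θ := by
    have h1 := Finset.sum_range_succ' g l
    have h2 := Finset.sum_range_succ g l
    have hg0 : g 0 = -(ζ * θ) := by
      rw [hg]
      simp only
      rw [trS367_zero, pow_zero, RingAut.one_apply]
      ring
    have hgl : g l = (trS367 s l ζ - ζ) * θ := by
      rw [hg]
      simp only
      rw [hext.cyc.order]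
    have := h1.symm.trans h2
    rw [hg0, hgl] at this
    linear_combination this
  have key : s η - η - ζ = -(u⁻¹ * (trS367 s l ζ * θ)) := by
    rw [hη, map_neg, map_mul, map_inv₀, hsu, hsum2, hsum3, hsum1]
    field_simp
    ring
  refine ⟨η, ?_, ?_⟩
  · rw [hη, Valuation.map_neg, Valuation.map_mul, map_inv₀, hθ1, inv_one, one_mul]
    by_cases hl0 : l = 0
    · subst hl0; simp
    · refine Valuation.map_sum_le _ fun j _ => ?_
      rw [Valuation.map_mul, val_pow367 s hs]
      exact mul_le_one' (val_trS367_le s hs j ζ 1 hζ) hθ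
  · rw [key, Valuation.map_neg, Valuation.map_mul, map_inv₀, hθ1, inv_one, one_mul,
      Valuation.map_mul]
    calc Valued.v (trS367 s l ζ) * Valued.v θ ≤ Valued.v (trS367 s l ζ) * 1 :=
          mul_le_mul' le_rfl hθ
      _ = Valued.v (trS367 s l ζ) := mul_one _
      _ < 1 := htr

theorem val_i367 (hext : IsLocalExt k k' l 1 i s) (x : k) : Valued.v (i x) = Valued.v x := by
  have := hext.val_i x
  rw [pow_one] at this
  exact this

/-- **The count in the residue field.** -/
theorem res_count367 (hk : IsLocalField k q) (hk' : IsLocalField k' (q ^ l))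
    (hext : IsLocalExt k k' l 1 i s) (T : Finset k') (hT1 : ∀ x ∈ T, Valued.v x ≤ 1)
    (hT2 : ∀ x ∈ T, ∀ y ∈ T, x ≠ y → Valued.v (x - y) = 1)
    (hT3 : ∀ z : k', Valued.v z ≤ 1 → ∃ x ∈ T, Valued.v (z - x) < 1)
    (ζ : k') (hζ : Valued.v ζ ≤ 1) :
    (T.filter (fun t => Valued.v (s t - t - ζ) < 1)).card
      = if Valued.v (trS367 s l ζ) < 1 then q else 0 := by
  classical
  have hs := hext.val_s
  by_cases htr : Valued.v (trS367 s l ζ) < 1
  · rw [if_pos htr]
    obtain ⟨η₀, hη₀, hη₀1⟩ := additive_hilbert90_367 hk hk' hext ζ hζ htr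
    obtain ⟨Tk, hcard, hTk1, hTk2, hTk3⟩ := hk.residue
    have hint : ∀ a ∈ Tk, Valued.v (η₀ + i a) ≤ 1 := fun a ha =>
      Valuation.map_add_le _ hη₀ (by rw [val_i367 hext]; exact hTk1 a ha)
    rw [← hcard]
    symm
    refine Finset.card_bij (fun a ha => Classical.choose (hT3 (η₀ + i a) (hint a ha)))
      ?_ ?_ ?_
    · intro a ha
      obtain ⟨h1, h2⟩ := Classical.choose_spec (hT3 (η₀ + i a) (hint a ha))
      set t := Classical.choose (hT3 (η₀ + i a) (hint a ha)) with ht
      rw [Finset.mem_filter]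
      refine ⟨h1, ?_⟩
      have e : s t - t - ζ = (s η₀ - η₀ - ζ) + (η₀ + i a - t) - s (η₀ + i a - t) := by
        rw [map_sub, map_add, hext.cyc.fix_i]
        ring
      rw [e]
      refine lt_of_le_of_lt (Valuation.map_sub _ _ _) (max_lt ?_ ?_)
      · exact lt_of_le_of_lt (Valuation.map_add _ _ _) (max_lt hη₀1 h2)
      · rw [hs]; exact h2
    · intro a ha a' ha' h
      obtain ⟨h1, h2⟩ := Classical.choose_spec (hT3 (η₀ + i a) (hint a ha))
      obtain ⟨h1', h2'⟩ := Classical.choose_spec (hT3 (η₀ + i a') (hint a' ha'))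
      rw [← h] at h2'
      by_contra hne
      have h3 := hTk2 a ha a' ha' hne
      have e : i (a - a') = (η₀ + i a - Classical.choose (hT3 (η₀ + i a) (hint a ha)))
          - (η₀ + i a' - Classical.choose (hT3 (η₀ + i a) (hint a ha))) := by
        rw [map_sub]; ring
      have h4 : Valued.v (i (a - a')) < 1 := by
        rw [e]
        exact lt_of_le_of_lt (Valuation.map_sub _ _ _) (max_lt h2 h2')
      rw [val_i367 hext, h3] at h4
      exact lt_irrefl _ h4
    · intro t ht
      rw [Finset.mem_filter] at ht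
      obtain ⟨htT, ht1⟩ := ht
      have hx : Valued.v (t - η₀) ≤ 1 := Valuation.map_sub_le _ (hT1 t htT) hη₀
      have hsx : Valued.v (s (t - η₀) - (t - η₀)) < 1 := by
        have e : s (t - η₀) - (t - η₀) = (s t - t - ζ) - (s η₀ - η₀ - ζ) := by
          rw [map_sub]; ring
        rw [e]
        exact lt_of_le_of_lt (Valuation.map_sub _ _ _) (max_lt ht1 hη₀1)
      obtain ⟨a₁, ha₁, ha₁'⟩ := H131.resFixedC_of_resFaithfulC_h131 H400.resFaithful400
        k k' q l i s hk hk' hext (t - η₀) hx hsx
      obtain ⟨a, ha, ha'⟩ := hTk3 a₁ ha₁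
      refine ⟨a, ha, ?_⟩
      obtain ⟨h1, h2⟩ := Classical.choose_spec (hT3 (η₀ + i a) (hint a ha))
      by_contra hne
      have h3 := hT2 _ h1 t htT hne
      have e : Classical.choose (hT3 (η₀ + i a) (hint a ha)) - t
          = -(η₀ + i a - Classical.choose (hT3 (η₀ + i a) (hint a ha)))
            + (-(t - η₀ - i a₁) + -(i (a₁ - a))) := by
        rw [map_sub]; ring
      have h4 : Valued.v (Classical.choose (hT3 (η₀ + i a) (hint a ha)) - t) < 1 := by
        rw [e]
        refine lt_of_le_of_lt (Valuation.map_add _ _ _) (max_lt ?_ ?_)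
        · rw [Valuation.map_neg]; exact h2
        · refine lt_of_le_of_lt (Valuation.map_add _ _ _) (max_lt ?_ ?_)
          · rw [Valuation.map_neg]; exact ha₁'
          · rw [Valuation.map_neg, val_i367 hext]; exact ha'
      rw [h3] at h4
      exact lt_irrefl _ h4
  · rw [if_neg htr, Finset.card_eq_zero, Finset.filter_eq_empty_iff]
    intro t _ ht1
    apply htr
    have h1 : Valued.v (trS367 s l (s t - t - ζ)) ≤ WithZero.exp (-1 : ℤ) :=
      val_trS367_le s hs l _ _ (lt_one_iff367.1 ht1)
    rw [trS367_sub, trS367_sub, trS367_apply_s s l hext.cyc.order, sub_self, zero_sub,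
      Valuation.map_neg] at h1
    exact lt_one_iff367.2 h1

end Res

end Fermat.Agent.LT.T6.H367

end
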