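import Mathlib

/-!
# Row LT, tower T6, leaf T6.14c `EllCountC` (helper367): the combinatorics of the count

OFF-MAIN.  No gaps, nothing assumed.  Mathlib only.

`S n a = ∑_{ξ mod νⁿ} a (r(n, ξ))` satisfies `S 0 a = N 0 · a 0` and
`S (n+1) a = S n a'`, `a' 0 = q_n a 0 + (Q - q_n) a 1`, `a' r = Q a (r+1)` (`r ≥ 1`), with
`N (n+1) = q_n N n`.  Closed form of `S n a` and of the partial sums `∑_{n < M} S n a`.
-/

set_option autoImplicit false

noncomputable section

namespace Fermat.Agent.LT.T6.H367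

open Finset

/-- **Closed form of `S n a`.** -/
theorem comb367 (Q : ℂ) (N qn : ℕ → ℂ) (hN : ∀ n, N (n + 1) = qn n * N n)
    (S : ℕ → (ℕ → ℂ) → ℂ) (hS0 : ∀ a, S 0 a = N 0 * a 0)
    (hS : ∀ n a, S (n + 1) a
      = S n (fun r => if r = 0 then qn n * a 0 + (Q - qn n) * a 1 else Q * a (r + 1))) :
    ∀ n a, S n a = N n * a 0
      + ∑ r ∈ range n, Q ^ r * (Q * N (n - 1 - r) - N (n - r)) * a (r + 1) := by
  intro n
  induction n with
  | zero => intro a; simp [hS0]
  | succ n ih =>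
    intro a
    rw [hS, ih, Finset.sum_range_succ']
    have h1 : ∑ r ∈ range n, Q ^ r * (Q * N (n - 1 - r) - N (n - r)) *
          (if r + 1 = 0 then qn n * a 0 + (Q - qn n) * a 1 else Q * a (r + 1 + 1))
        = ∑ r ∈ range n, Q ^ (r + 1) * (Q * N (n + 1 - 1 - (r + 1)) - N (n + 1 - (r + 1)))
            * a (r + 1 + 1) := by
      refine Finset.sum_congr rfl fun r _ => ?_
      have e1 : n + 1 - 1 - (r + 1) = n - 1 - r := by omega
      have e2 : n + 1 - (r + 1) = n - r := by omega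
      rw [if_neg (Nat.succ_ne_zero r), e1, e2, pow_succ]
      ring
    rw [h1, if_pos rfl, hN n]
    simp only [pow_zero, Nat.add_sub_cancel, Nat.sub_zero, zero_add]
    rw [hN n]
    ring

/-- The partial sums of `Q N j - N (j+1)`. -/
def eSum367 (Q : ℂ) (N : ℕ → ℂ) (m : ℕ) : ℂ := ∑ j ∈ range m, (Q * N j - N (j + 1))

theorem eSum367_eq (Q : ℂ) (N : ℕ → ℂ) (m : ℕ) :
    eSum367 Q N m = Q * (∑ j ∈ range m, N j) - (∑ j ∈ range (m + 1), N j) + N 0 := by
  unfold eSum367
  rw [Finset.sum_sub_distrib, ← Finset.mul_sum, Finset.sum_range_succ' N m]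
  ring

/-- **Closed form of the partial sums.** -/
theorem psum367 (Q : ℂ) (N : ℕ → ℂ) (S : ℕ → (ℕ → ℂ) → ℂ)
    (hS : ∀ n a, S n a = N n * a 0
      + ∑ r ∈ range n, Q ^ r * (Q * N (n - 1 - r) - N (n - r)) * a (r + 1))
    (a : ℕ → ℂ) (M : ℕ) :
    ∑ n ∈ range M, S n a = (∑ n ∈ range M, N n) * a 0
      + ∑ r ∈ range M, Q ^ r * a (r + 1) * eSum367 Q N (M - 1 - r) := by
  induction M with
  | zero => simp
  | succ M ih =>
    rw [Finset.sum_range_succ, ih, hS M a, Finset.sum_range_succ N M,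
      Finset.sum_range_succ (fun r => Q ^ r * a (r + 1) * eSum367 Q N (M + 1 - 1 - r)) M]
    have h0 : eSum367 Q N (M + 1 - 1 - M) = 0 := by
      have : M + 1 - 1 - M = 0 := by omega
      rw [this]
      unfold eSum367
      simp
    have h1 : ∑ r ∈ range M, Q ^ r * a (r + 1) * eSum367 Q N (M + 1 - 1 - r)
        = ∑ r ∈ range M, Q ^ r * a (r + 1) * eSum367 Q N (M - 1 - r)
          + ∑ r ∈ range M, Q ^ r * (Q * N (M - 1 - r) - N (M - r)) * a (r + 1) := by
      rw [← Finset.sum_add_distrib]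
      refine Finset.sum_congr rfl fun r hr => ?_
      have hr' : r < M := Finset.mem_range.1 hr
      have e1 : M + 1 - 1 - r = (M - 1 - r) + 1 := by omega
      have e2 : M - 1 - r + 1 = M - r := by omega
      rw [e1]
      unfold eSum367
      rw [Finset.sum_range_succ, e2]
      ring
    rw [h1, h0]
    ring

/-- The sequence `N n = qⁿ` for `n ≤ c`, `0` for `n > c`. -/
def nSeq367 (q : ℕ) (c : ℕ) (n : ℕ) : ℂ := if n ≤ c then (q : ℂ) ^ n else 0

theorem nSeq367_sum (q c M : ℕ) (hM : c + 1 ≤ M) :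
    ∑ n ∈ range M, nSeq367 q c n = ∑ n ∈ range (c + 1), (q : ℂ) ^ n := by
  have hsub : range (c + 1) ⊆ range M := Finset.range_subset_range.2 hM
  rw [← Finset.sum_subset hsub]
  · refine Finset.sum_congr rfl fun n hn => ?_
    unfold nSeq367
    rw [if_pos (by have := Finset.mem_range.1 hn; omega)]
  · intro n _ hn
    unfold nSeq367
    rw [if_neg (by have := Finset.mem_range.not.1 hn; omega)]

theorem eSum367_nSeq (Q : ℂ) (q c m : ℕ) (hm : c + 1 ≤ m) :
    eSum367 Q (nSeq367 q c) m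
      = 1 + (Q - 1) * ∑ n ∈ range (c + 1), (q : ℂ) ^ n := by
  rw [eSum367_eq, nSeq367_sum q c m hm, nSeq367_sum q c (m + 1) (by omega)]
  unfold nSeq367
  simp
  ring

/-- **The total.**  `a r = 0` for `r ≥ R`: the sum of the `S n a`, `n < M`, `M ≥ R + c + 2`. -/
theorem total367 (Q : ℂ) (q c : ℕ) (S : ℕ → (ℕ → ℂ) → ℂ)
    (hS : ∀ n a, S n a = nSeq367 q c n * a 0
      + ∑ r ∈ range n, Q ^ r * (Q * nSeq367 q c (n - 1 - r) - nSeq367 q c (n - r)) * a (r + 1))
    (a : ℕ → ℂ) (R : ℕ) (ha : ∀ r, R ≤ r → a r = 0) (M : ℕ) (hM : R + c + 2 ≤ M) :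
    (∀ n, M ≤ n → S n a = 0) ∧
    ∑ n ∈ range M, S n a = (∑ n ∈ range (c + 1), (q : ℂ) ^ n) * a 0
      + ∑ r ∈ range M, Q ^ r * (1 + (Q - 1) * ∑ n ∈ range (c + 1), (q : ℂ) ^ n) * a (r + 1) := by
  constructor
  · intro n hn
    rw [hS n a]
    have h0 : nSeq367 q c n = 0 := by
      unfold nSeq367
      rw [if_neg (by omega)]
    rw [h0, zero_mul, zero_add]
    refine Finset.sum_eq_zero fun r hr => ?_
    have hr' : r < n := Finset.mem_range.1 hr
    by_cases hrR : R ≤ r + 1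
    · rw [ha (r + 1) hrR, mul_zero]
    · have h1 : nSeq367 q c (n - 1 - r) = 0 := by
        unfold nSeq367
        rw [if_neg (by omega)]
      have h2 : nSeq367 q c (n - r) = 0 := by
        unfold nSeq367
        rw [if_neg (by omega)]
      rw [h1, h2]
      ring
  · rw [psum367 Q (nSeq367 q c) S hS a M, nSeq367_sum q c M (by omega)]
    congr 1
    refine Finset.sum_congr rfl fun r hr => ?_
    by_cases hrR : R ≤ r + 1
    · rw [ha (r + 1) hrR, mul_zero, zero_mul, mul_zero]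
    · rw [eSum367_nSeq Q q c (M - 1 - r) (by omega)]
      ring

end Fermat.Agent.LT.T6.H367

end
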