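import Mathlib
import Fermat.Agent.LT.T6.H367.EllLift
import Fermat.Agent.LT.T6.H367.EllRes
import Fermat.Agent.LT.T6.H367.EllSum

/-!
# Row LT, tower T6, leaf T6.14c `EllCountC` (helper367): THE COUNT

OFF-MAIN.  No gaps, nothing assumed.

`ellCountC367 : Fermat.Agent.LT.T6.H847.EllCountC`.
-/

set_option autoImplicit false

open scoped Matrix

noncomputable section

namespace Fermat.Agent.LT.T6.H367

open Fermat.Agent.LT.T6 Fermat.Agent.LT.T6.H847

/-! ## 1. The weights -/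

theorem ellWeight_ne_zero367 {Q : ℕ} {lam : ℤ × ℤ} {j : ℤ} {Θ : ℂ}
    (h : ellWeight Q lam j Θ ≠ 0) : lam.1 + lam.2 = j ∧ lam.2 ≤ lam.1 := by
  by_contra hc
  apply h
  unfold ellWeight
  rw [if_neg hc]

theorem ellWeight_odd367 (Q : ℕ) (h : ℤ) (n : ℕ) (Θ : ℂ) :
    ellWeight Q (h + n + 1, h - n) (2 * h + 1) Θ = (Q : ℂ) ^ n := by
  unfold ellWeight
  have h1 : (h + n + 1, h - (n : ℤ)).1 + (h + n + 1, h - (n : ℤ)).2 = 2 * h + 1 ∧
      (h + n + 1, h - (n : ℤ)).2 ≤ (h + n + 1, h - (n : ℤ)).1 := by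
    constructor
    · simp only; ring
    · simp only; omega
  have h2 : (2 * h + 1) % 2 = 1 := by omega
  rw [if_pos h1, if_pos h2]
  have h3 : ((h + n + 1, h - (n : ℤ)).1 - (h + n + 1, h - (n : ℤ)).2 - 1) / 2 = (n : ℤ) := by
    simp only
    omega
  rw [h3, zpow_natCast]

theorem ellWeight_even_zero367 (Q : ℕ) (J : ℤ) (Θ : ℂ) :
    ellWeight Q (J + ((0 : ℕ) : ℤ), J - ((0 : ℕ) : ℤ)) (2 * J) Θ = Θ := by
  unfold ellWeight
  have h1 : (J + ((0 : ℕ) : ℤ), J - ((0 : ℕ) : ℤ)).1 + (J + ((0 : ℕ) : ℤ), J - ((0 : ℕ) : ℤ)).2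
      = 2 * J ∧
      (J + ((0 : ℕ) : ℤ), J - ((0 : ℕ) : ℤ)).2 ≤ (J + ((0 : ℕ) : ℤ), J - ((0 : ℕ) : ℤ)).1 := by
    constructor
    · simp only; push_cast; ring
    · simp only; push_cast; omega
  have h2 : ¬ (2 * J) % 2 = 1 := by omega
  have h3 : (J + ((0 : ℕ) : ℤ), J - ((0 : ℕ) : ℤ)).1
      = (J + ((0 : ℕ) : ℤ), J - ((0 : ℕ) : ℤ)).2 := by
    simp only; push_cast; ring
  rw [if_pos h1, if_neg h2, if_pos h3]

theorem ellWeight_even_succ367 (Q : ℕ) (J : ℤ) (r : ℕ) (Θ : ℂ) :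
    ellWeight Q (J + ((r + 1 : ℕ) : ℤ), J - ((r + 1 : ℕ) : ℤ)) (2 * J) Θ
      = (Q : ℂ) ^ r * (1 + ((Q : ℂ) - 1) * Θ) := by
  unfold ellWeight
  have h1 : (J + ((r + 1 : ℕ) : ℤ), J - ((r + 1 : ℕ) : ℤ)).1
        + (J + ((r + 1 : ℕ) : ℤ), J - ((r + 1 : ℕ) : ℤ)).2 = 2 * J ∧
      (J + ((r + 1 : ℕ) : ℤ), J - ((r + 1 : ℕ) : ℤ)).2
        ≤ (J + ((r + 1 : ℕ) : ℤ), J - ((r + 1 : ℕ) : ℤ)).1 := by
    constructor
    · simp only; push_cast; ring
    · simp only; push_cast; omega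
  have h2 : ¬ (2 * J) % 2 = 1 := by omega
  have h3 : ¬ (J + ((r + 1 : ℕ) : ℤ), J - ((r + 1 : ℕ) : ℤ)).1
      = (J + ((r + 1 : ℕ) : ℤ), J - ((r + 1 : ℕ) : ℤ)).2 := by
    simp only; push_cast; omega
  have h4 : ((J + ((r + 1 : ℕ) : ℤ), J - ((r + 1 : ℕ) : ℤ)).1
      - (J + ((r + 1 : ℕ) : ℤ), J - ((r + 1 : ℕ) : ℤ)).2) / 2 - 1 = (r : ℤ) := by
    simp only; push_cast; omega
  rw [if_pos h1, if_neg h2, if_neg h3, h4, zpow_natCast]

/-! ## 2. Reindexing a sum over `ℤ × ℤ` -/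

theorem finsupp_sum_reindex367 (φ : (ℤ × ℤ) →₀ ℂ) (w : ℤ × ℤ → ℂ) (e : ℕ → ℤ × ℤ)
    (he : Function.Injective e) (hw : ∀ lam, w lam ≠ 0 → ∃ r, e r = lam) :
    (φ.sum fun lam a => a * w lam) = ∑ᶠ r : ℕ, φ (e r) * w (e r) := by
  have h1 : (φ.sum fun lam a => a * w lam) = ∑ᶠ lam, φ lam * w lam := by
    unfold Finsupp.sum
    rw [finsum_eq_sum_of_support_subset]
    intro lam hlam
    rw [Function.mem_support] at hlam
    simp only [Finset.mem_coe, Finsupp.mem_support_iff]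
    intro h0
    apply hlam
    rw [h0, zero_mul]
  rw [h1, ← finsum_mem_range (f := fun lam => φ lam * w lam) he, ← finsum_mem_univ]
  refine finsum_mem_inter_support_eq _ _ _ ?_
  ext lam
  simp only [Set.mem_inter_iff, Set.mem_univ, true_and, Function.mem_support, Set.mem_range]
  constructor
  · intro h
    exact ⟨hw lam (right_ne_zero_of_mul h), h⟩
  · intro h
    exact h.2

/-- A bound for the support along an injective sequence. -/
theorem exists_bound367 (φ : (ℤ × ℤ) →₀ ℂ) (J : ℤ) :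
    ∃ R : ℕ, ∀ r : ℕ, R ≤ r → φ (J + (r : ℤ), J - (r : ℤ)) = 0 := by
  refine ⟨φ.support.sup (fun lam => (lam.1 - J).toNat) + 1, fun r hr => ?_⟩
  by_contra h
  have hmem : (J + (r : ℤ), J - (r : ℤ)) ∈ φ.support := Finsupp.mem_support_iff.2 h
  have := Finset.le_sup (f := fun lam : ℤ × ℤ => (lam.1 - J).toNat) hmem
  have e : (J + (r : ℤ) - J).toNat = r := by
    have : J + (r : ℤ) - J = (r : ℤ) := by ring
    rw [this]
    exact Int.toNat_natCast r
  rw [e] at this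
  omega

/-! ## 3. The odd case -/

section Odd

variable {K : Type} [Field K] [Valued K Γ₀]

theorem odd_case367 {s : K ≃+* K} {τ ν : K} (C : Ctx367 s τ ν) (d₀ d₁ : K) (δ₀ : GL (Fin 2) K)
    (hδ : (δ₀ : Matrix (Fin 2) (Fin 2) K) = embMat τ ν d₀ d₁) (hO : Valued.v d₀ < Valued.v d₁)
    (Q : ℕ) (Bf : ℕ → Finset K) (hint : ∀ n, ∀ ξ ∈ Bf n, Valued.v ξ ≤ 1)
    (hcard : ∀ n, (Bf n).card = Q ^ n) (φ : (ℤ × ℤ) →₀ ℂ) (Θ : ℂ) :
    ∑ᶠ n : ℕ, ∑ ξ ∈ Bf n, φ (cartan (Ctx367.conjGL367 s τ ν δ₀ n ξ))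
      = φ.sum fun lam a => a * ellWeight Q lam
          (ord847 (δ₀ : Matrix (Fin 2) (Fin 2) K).det) Θ := by
  have hj : ord847 (δ₀ : Matrix (Fin 2) (Fin 2) K).det = 2 * ord847 d₁ + 1 := by
    apply ord_eq_of_val367
    rw [hδ]
    exact C.val_det_odd d₀ d₁ hO
  rw [hj]
  set h := ord847 d₁ with hh
  have he : Function.Injective (fun n : ℕ => ((h + n + 1, h - n) : ℤ × ℤ)) := by
    intro n m hnm
    simp only [Prod.mk.injEq] at hnm
    omega
  rw [finsupp_sum_reindex367 φ (fun lam => ellWeight Q lam (2 * h + 1) Θ) _ he]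
  · refine finsum_congr fun n => ?_
    rw [ellWeight_odd367]
    have h1 : ∑ ξ ∈ Bf n, φ (cartan (Ctx367.conjGL367 s τ ν δ₀ n ξ))
        = ∑ ξ ∈ Bf n, φ (h + n + 1, h - n) := by
      refine Finset.sum_congr rfl fun ξ hξ => ?_
      rw [C.cartan_odd d₀ d₁ δ₀ hδ hO n ξ (hint n ξ hξ)]
    rw [h1, Finset.sum_const, hcard, nsmul_eq_mul]
    push_cast
    ring
  · intro lam hlam
    obtain ⟨h1, h2⟩ := ellWeight_ne_zero367 hlam
    refine ⟨(lam.1 - h - 1).toNat, ?_⟩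
    have h3 : 0 ≤ lam.1 - h - 1 := by omega
    show ((h + ((lam.1 - h - 1).toNat : ℤ) + 1, h - ((lam.1 - h - 1).toNat : ℤ)) : ℤ × ℤ) = lam
    rw [Int.toNat_of_nonneg h3]
    ext
    · simp only; ring
    · simp only; omega

end Odd

/-! ## 4. The even case -/

section Even

variable {k k' : Type} [Field k] [Field k'] [Valued k Γ₀] [Valued k' Γ₀]
  {q l : ℕ} {i : k →+* k'} {s : k' ≃+* k'}

theorem even_case367 (hk : IsLocalField k q) (hk' : IsLocalField k' (q ^ l))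
    (hext : IsLocalExt k k' l 1 i s) {τ ν : k'} (C : Ctx367 s τ ν) (d₀ d₁ : k')
    (δ₀ γ' : GL (Fin 2) k')
    (hδ : (δ₀ : Matrix (Fin 2) (Fin 2) k') = embMat τ ν d₀ d₁)
    (α' β' : k') (hγ : (γ' : Matrix (Fin 2) (Fin 2) k') = embMat τ ν α' β')
    (hN : twNorm s l δ₀ = γ') (hβ' : β' ≠ 0) (hE : Valued.v d₁ ≤ Valued.v d₀) (hd₀ : d₀ ≠ 0)
    (T : Finset k') (hT : IsResSys367 T) (hTcard : T.card = q ^ l)
    (Bf : ℕ → Finset k') (hint : ∀ n, ∀ ξ ∈ Bf n, Valued.v ξ ≤ 1)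
    (hB0 : ∃ b₀ : k', Bf 0 = {b₀})
    (hfib : ∀ (n : ℕ) (h : k' → ℂ), (∀ x y : k', Valued.v x ≤ 1 → Valued.v y ≤ 1 →
          Valued.v (x - y) ≤ WithZero.exp (-((n + 1 : ℕ) : ℤ)) → h x = h y) →
        ∑ b ∈ Bf (n + 1), h b = ∑ ξ ∈ Bf n, ∑ t ∈ T, h (ξ + ν ^ n * t))
    (φ : (ℤ × ℤ) →₀ ℂ) :
    ∑ᶠ n : ℕ, ∑ ξ ∈ Bf n, φ (cartan (Ctx367.conjGL367 s τ ν δ₀ n ξ))
      = φ.sum fun lam a => a * ellWeight (q ^ l) lam
          (ord847 (δ₀ : Matrix (Fin 2) (Fin 2) k').det) (theta q (ord847 β' - ord847 α')) := by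
  classical
  have hl := hext.cyc.order
  have hj : ord847 (δ₀ : Matrix (Fin 2) (Fin 2) k').det = 2 * ord847 d₀ := by
    apply ord_eq_of_val367
    rw [hδ]
    exact C.val_det_even d₀ d₁ hE hd₀
  rw [hj]
  set J := ord847 d₀ with hJ
  set cN := (ord847 β' - ord847 α').toNat with hcN
  set Θ := theta q (ord847 β' - ord847 α') with hΘ
  have hΘeq : Θ = ∑ n ∈ Finset.range (cN + 1), (q : ℂ) ^ n := rfl
  set Q : ℂ := ((q ^ l : ℕ) : ℂ) with hQ
  obtain ⟨hα, hβα⟩ := C.beta_le_alpha l hl d₀ d₁ δ₀ γ' hδ α' β' hγ hN hE hd₀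
  have hv₀ : Valued.v d₀ ≠ 0 := (Valuation.ne_zero_iff _).2 hd₀
  have hα0 : α' ≠ 0 := by
    intro h
    rw [h, Valuation.map_zero] at hα
    exact pow_ne_zero l hv₀ hα.symm
  have hord : ord847 α' ≤ ord847 β' := by
    rw [val_eq_exp_ord367 hβ', val_eq_exp_ord367 hα0, WithZero.exp_le_exp] at hβα
    omega
  have hP : ∀ m : ℕ, Valued.v β' ≤ Valued.v α' * WithZero.exp (-(m : ℤ)) ↔ m ≤ cN := by
    intro m
    rw [val_eq_exp_ord367 hβ', val_eq_exp_ord367 hα0, ← WithZero.exp_add, WithZero.exp_le_exp]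
    omega
  -- the state sums
  set a : ℕ → ℂ := fun r => φ (J + (r : ℤ), J - (r : ℤ)) with ha
  set S : ℕ → (ℕ → ℂ) → ℂ := fun n b => ∑ ξ ∈ Bf n, b (rr367 s τ ν d₀ d₁ n ξ) with hS
  set qn : ℕ → ℂ := fun n => if n + 1 ≤ cN then (q : ℂ) else 0 with hqn
  have hLHS : ∀ n, ∑ ξ ∈ Bf n, φ (cartan (Ctx367.conjGL367 s τ ν δ₀ n ξ)) = S n a := by
    intro n
    refine Finset.sum_congr rfl fun ξ hξ => ?_
    rw [C.cartan_rr d₀ d₁ δ₀ hδ hE hd₀ n ξ (hint n ξ hξ)]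
  have hS0 : ∀ b : ℕ → ℂ, S 0 b = nSeq367 q cN 0 * b 0 := by
    intro b
    obtain ⟨b₀, hb₀⟩ := hB0
    have hb₀int : Valued.v b₀ ≤ 1 := hint 0 b₀ (by rw [hb₀]; exact Finset.mem_singleton_self b₀)
    simp only [hS]
    rw [hb₀, Finset.sum_singleton, C.rr_zero d₀ d₁ hE b₀ hb₀int]
    unfold nSeq367
    rw [if_pos (Nat.zero_le _), pow_zero, one_mul]
  have hNrec : ∀ n, nSeq367 q cN (n + 1) = qn n * nSeq367 q cN n := by
    intro n
    simp only [hqn]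
    unfold nSeq367
    by_cases h : n + 1 ≤ cN
    · rw [if_pos h, if_pos h, if_pos (by omega), pow_succ]
      ring
    · rw [if_neg h, if_neg h, zero_mul]
  have hSrec : ∀ (n : ℕ) (b : ℕ → ℂ), S (n + 1) b
      = S n (fun r => if r = 0 then qn n * b 0 + (Q - qn n) * b 1 else Q * b (r + 1)) := by
    intro n b
    simp only [hS]
    rw [hfib n (fun x => b (rr367 s τ ν d₀ d₁ (n + 1) x))
      (fun x y hx hy hxy => by rw [C.rr_congr d₀ d₁ hE hd₀ (n + 1) x y hx hy hxy])]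
    refine Finset.sum_congr rfl fun ξ hξ => ?_
    have hξi := hint n ξ hξ
    by_cases hg : Valued.v (bNum367 τ ν d₀ d₁ ξ (s ξ)) * WithZero.exp ((n : ℤ)) ≤ Valued.v d₀
    · have hr0 : rr367 s τ ν d₀ d₁ n ξ = 0 := by
        unfold rr367
        rw [if_pos hg]
      rw [hr0, if_pos rfl]
      set ζ := -(bNum367 τ ν d₀ d₁ ξ (s ξ)) / (ν ^ n * aNum367 τ ν d₀ d₁ ξ (s ξ)) with hζ
      have hζi : Valued.v ζ ≤ 1 :=
        (C.child_good d₀ d₁ hE hd₀ n ξ 0 hξi (by simp) hg).1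
      have h1 : ∑ t ∈ T, b (rr367 s τ ν d₀ d₁ (n + 1) (ξ + ν ^ n * t))
          = ∑ t ∈ T, if Valued.v (s t - t - ζ) < 1 then b 0 else b 1 := by
        refine Finset.sum_congr rfl fun t ht => ?_
        rw [(C.child_good d₀ d₁ hE hd₀ n ξ t hξi (hT.int t ht) hg).2, ← hζ]
        split_ifs <;> rfl
      have hcount := res_count367 hk hk' hext T hT.int hT.sep hT.cov ζ hζi
      have hcrit := C.trace_crit l hl d₀ d₁ δ₀ γ' hδ α' β' hγ hN hE hd₀ n ξ hξi hg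
      rw [← hζ, hP (n + 1)] at hcrit
      have hcount' : ((T.filter (fun t => Valued.v (s t - t - ζ) < 1)).card : ℂ) = qn n := by
        rw [hcount]
        simp only [hqn]
        by_cases h : n + 1 ≤ cN
        · rw [if_pos (hcrit.2 h), if_pos h]
        · rw [if_neg (fun h' => h (hcrit.1 h')), if_neg h]
          simp
      have hcompl : ((T.filter (fun t => ¬ Valued.v (s t - t - ζ) < 1)).card : ℂ)
          = Q - qn n := by
        have := Finset.card_filter_add_card_filter_not (s := T)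
          (fun t => Valued.v (s t - t - ζ) < 1)
        rw [← hcount', hQ, ← hTcard, ← this]
        push_cast
        ring
      rw [h1, Finset.sum_ite, Finset.sum_const, Finset.sum_const, nsmul_eq_mul, nsmul_eq_mul,
        hcount', hcompl]
    · have hpos := (ord_of_bad367 hd₀ _ n (not_le.1 hg)).2
      have hr0 : rr367 s τ ν d₀ d₁ n ξ ≠ 0 := by
        unfold rr367
        rw [if_neg hg]
        omega
      rw [if_neg hr0]
      have h1 : ∑ t ∈ T, b (rr367 s τ ν d₀ d₁ (n + 1) (ξ + ν ^ n * t))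
          = ∑ t ∈ T, b (rr367 s τ ν d₀ d₁ n ξ + 1) := by
        refine Finset.sum_congr rfl fun t ht => ?_
        rw [C.child_bad d₀ d₁ hE hd₀ n ξ t hξi (hT.int t ht) hg]
      rw [h1, Finset.sum_const, nsmul_eq_mul, hTcard]
  have hclosed := comb367 Q (nSeq367 q cN) qn hNrec S hS0 hSrec
  obtain ⟨R, hR⟩ := exists_bound367 φ J
  have htot := total367 Q q cN S hclosed a R hR (R + cN + 2) le_rfl
  -- the left hand side
  have hL : ∑ᶠ n : ℕ, ∑ ξ ∈ Bf n, φ (cartan (Ctx367.conjGL367 s τ ν δ₀ n ξ))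
      = ∑ n ∈ Finset.range (R + cN + 2), S n a := by
    rw [finsum_congr hLHS]
    refine finsum_eq_sum_of_support_subset _ ?_
    intro n hn
    rw [Function.mem_support] at hn
    simp only [Finset.coe_range, Set.mem_Iio]
    by_contra h
    exact hn (htot.1 n (by omega))
  rw [hL, htot.2]
  -- the right hand side
  have he : Function.Injective (fun r : ℕ => ((J + (r : ℤ), J - (r : ℤ)) : ℤ × ℤ)) := by
    intro n m hnm
    simp only [Prod.mk.injEq] at hnm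
    omega
  rw [finsupp_sum_reindex367 φ (fun lam => ellWeight (q ^ l) lam (2 * J) Θ) _ he]
  · have hR' : ∑ᶠ r : ℕ, φ (J + (r : ℤ), J - (r : ℤ))
          * ellWeight (q ^ l) (J + (r : ℤ), J - (r : ℤ)) (2 * J) Θ
        = ∑ r ∈ Finset.range (R + cN + 2 + 1), a r
          * ellWeight (q ^ l) (J + (r : ℤ), J - (r : ℤ)) (2 * J) Θ := by
      refine finsum_eq_sum_of_support_subset _ ?_
      intro r hr
      rw [Function.mem_support] at hr
      simp only [Finset.coe_range, Set.mem_Iio]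
      by_contra h
      apply hr
      rw [hR r (by omega), zero_mul]
    have h2 : ∑ r ∈ Finset.range (R + cN + 2), a (r + 1)
          * ellWeight (q ^ l) (J + ((r + 1 : ℕ) : ℤ), J - ((r + 1 : ℕ) : ℤ)) (2 * J) Θ
        = ∑ r ∈ Finset.range (R + cN + 2), Q ^ r * (1 + (Q - 1) * Θ) * a (r + 1) := by
      refine Finset.sum_congr rfl fun r _ => ?_
      rw [ellWeight_even_succ367]
      ring
    rw [hR', Finset.sum_range_succ'
      (fun r => a r * ellWeight (q ^ l) (J + (r : ℤ), J - (r : ℤ)) (2 * J) Θ) (R + cN + 2),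
      ellWeight_even_zero367, h2, ← hΘeq]
    ring
  · intro lam hlam
    obtain ⟨h1, h2⟩ := ellWeight_ne_zero367 hlam
    refine ⟨(lam.1 - J).toNat, ?_⟩
    have h3 : 0 ≤ lam.1 - J := by omega
    show ((J + ((lam.1 - J).toNat : ℤ), J - ((lam.1 - J).toNat : ℤ)) : ℤ × ℤ) = lam
    rw [Int.toNat_of_nonneg h3]
    ext
    · simp only; ring
    · simp only; omega

end Even

/-! ## 5. The count -/

theorem ellCountC367 : EllCountC := by
  intro k k' _ _ _ _ q l i s hk hk' hext τ ν α β d₀ d₁ γ₀ δ₀ hD φ B hB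
  classical
  have C : Ctx367 s (i τ) (i ν) :=
    { val_s := hext.val_s
      sτ := hext.cyc.fix_i τ
      sν := hext.cyc.fix_i ν
      val_ν := by rw [val_i367 hext]; exact hD.val_ν
      val_τ := by rw [val_i367 hext]; exact hD.val_τ }
  obtain ⟨T, hTcard, hT1, hT2, hT3⟩ := hk'.residue
  have hT : IsResSys367 T := ⟨hT1, hT2, hT3⟩
  obtain ⟨Bf, hBf, hB0, hcard, hfib⟩ := reprFin367 C.val_ν T hT B hB
  have hint : ∀ n, ∀ ξ ∈ Bf n, Valued.v ξ ≤ 1 := by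
    intro n ξ hξ
    refine (hB n).1 ξ ?_
    rw [← hBf n]
    exact Finset.mem_coe.2 hξ
  have hLHS : (∑ᶠ n : ℕ, ∑ᶠ ξ ∈ B n,
        φ (cartan ((latGL (i τ) (i ν) n ξ)⁻¹ * δ₀ * glAut s (latGL (i τ) (i ν) n ξ))))
      = ∑ᶠ n : ℕ, ∑ ξ ∈ Bf n, φ (cartan (Ctx367.conjGL367 s (i τ) (i ν) δ₀ n ξ)) := by
    refine finsum_congr fun n => ?_
    rw [← hBf n, finsum_mem_coe_finset]
    rfl
  rw [hLHS]
  have hdet : (embMat (i τ) (i ν) d₀ d₁).det ≠ 0 := by
    rw [← hD.δ₀_eq]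
    exact Matrix.GeneralLinearGroup.det_ne_zero δ₀
  rcases le_or_gt (Valued.v d₁) (Valued.v d₀) with hE | hO
  · have hd₀ : d₀ ≠ 0 := by
      intro h
      rw [h, Valuation.map_zero] at hE
      have hd₁ : d₁ = 0 := (Valuation.zero_iff _).1 (le_antisymm hE bot_le)
      apply hdet
      rw [embMat_det367, h, hd₁]
      ring
    have hγ : ((Matrix.GeneralLinearGroup.map i γ₀ : GL (Fin 2) k') : Matrix (Fin 2) (Fin 2) k')
        = embMat (i τ) (i ν) (i α) (i β) := by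
      have : ((Matrix.GeneralLinearGroup.map i γ₀ : GL (Fin 2) k')
          : Matrix (Fin 2) (Fin 2) k') = (γ₀ : Matrix (Fin 2) (Fin 2) k).map i := rfl
      rw [this, hD.γ₀_eq, embMat_map367]
    have hβ' : i β ≠ 0 := by
      intro h
      exact hD.β_ne ((map_eq_zero i).1 h)
    have hordβ : ord847 (i β) = ord847 β := by
      unfold ord847
      rw [val_i367 hext]
    have hordα : ord847 (i α) = ord847 α := by
      unfold ord847
      rw [val_i367 hext]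
    have := even_case367 hk hk' hext C d₀ d₁ δ₀ _ hD.δ₀_eq (i α) (i β) hγ hD.norm_eq hβ' hE hd₀
      T hT hTcard Bf hint hB0 hfib φ
    rw [hordβ, hordα] at this
    exact this
  · have := odd_case367 C d₀ d₁ δ₀ hD.δ₀_eq hO (q ^ l) Bf hint
      (fun n => by rw [hcard n, hTcard]) φ (theta q (ord847 β - ord847 α))
    exact this

end Fermat.Agent.LT.T6.H367

end
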